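/-
M3 / S51 (helper23): an element of `AlgebraicClosure ℚ` fixed by all `ℚ`-automorphisms is rational.
Stated for the `Algebra ℚ (AlgebraicClosure ℚ)` instance that the frozen definitions use
(`DivisionRing.toRatAlgebra`), for which `IsGalois` is not found by instance search.
-/
import Mathlib.FieldTheory.Galois.Infinite
import Mathlib.FieldTheory.IsAlgClosed.AlgebraicClosure
import Mathlib.FieldTheory.Perfect
import Mathlib.Algebra.Algebra.Rat
import Fermat.Prelude.Def_FLTPrelim_GaloisRep

set_option autoImplicit false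

namespace Fermat.Agent.S51

/-- `ℚ̄/ℚ` is Galois, for the default `ℚ`-algebra structure of a characteristic zero field. -/
theorem isGalois_algebraicClosure_rat :
    @IsGalois ℚ _ (AlgebraicClosure ℚ) _ DivisionRing.toRatAlgebra := by
  have h : (DivisionRing.toRatAlgebra : Algebra ℚ (AlgebraicClosure ℚ))
      = AlgebraicClosure.instAlgebra ℚ := Subsingleton.elim _ _
  rw [h]
  let _ : Algebra ℚ (AlgebraicClosure ℚ) := AlgebraicClosure.instAlgebra ℚ
  have h1 : Algebra.IsAlgebraic ℚ (AlgebraicClosure ℚ) := AlgebraicClosure.isAlgebraic ℚ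
  have h2 : Algebra.IsSeparable ℚ (AlgebraicClosure ℚ) := inferInstance
  have h3 : Normal ℚ (AlgebraicClosure ℚ) := inferInstance
  exact ⟨⟩

/-- An element of `ℚ̄` fixed by the whole Galois group is rational. -/
theorem exists_rat_of_fixed (x : AlgebraicClosure ℚ)
    (hx : ∀ σ : AlgebraicClosure ℚ ≃ₐ[ℚ] AlgebraicClosure ℚ, σ x = x) :
    ∃ q : ℚ, algebraMap ℚ (AlgebraicClosure ℚ) q = x := by
  have := isGalois_algebraicClosure_rat
  exact (InfiniteGalois.mem_range_algebraMap_iff_fixed x).2 hx

end Fermat.Agent.S51
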