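/-
M3 / S51, task C1 (helper23): polynomial identities behind the duplication formula and the
3- and 5-division polynomials.  Everything is stated for values (ring elements), so that only
`ring` / `linear_combination` are needed.
-/
import Mathlib.AlgebraicGeometry.EllipticCurve.Affine.Point
import Mathlib.AlgebraicGeometry.EllipticCurve.DivisionPolynomial.Degree

set_option autoImplicit false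
set_option maxRecDepth 8000

namespace Fermat.Agent.S51

open WeierstrassCurve Polynomial

section values

variable {R : Type*} [CommRing R] (W : WeierstrassCurve R)

/-- value of `Ψ₂Sq` at `x` -/
def vΨ₂Sq (x : R) : R := 4 * x ^ 3 + W.b₂ * x ^ 2 + 2 * W.b₄ * x + W.b₆

/-- value of `Φ₂` at `x` -/
def vΦ₂ (x : R) : R := x ^ 4 - W.b₄ * x ^ 2 - 2 * W.b₆ * x - W.b₈

/-- value of `Ψ₃` at `x` -/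
def vΨ₃ (x : R) : R := 3 * x ^ 4 + W.b₂ * x ^ 3 + 3 * W.b₄ * x ^ 2 + 3 * W.b₆ * x + W.b₈

/-- value of `preΨ₄` at `x` -/
def vpreΨ₄ (x : R) : R :=
  2 * x ^ 6 + W.b₂ * x ^ 5 + 5 * W.b₄ * x ^ 4 + 10 * W.b₆ * x ^ 3 + 10 * W.b₈ * x ^ 2 +
    (W.b₂ * W.b₈ - W.b₄ * W.b₆) * x + (W.b₄ * W.b₈ - W.b₆ ^ 2)

/-- value of `Ψ₅ = preΨ₄ Ψ₂Sq² - Ψ₃³` at `x` -/
def vΨ₅ (x : R) : R := vpreΨ₄ W x * vΨ₂Sq W x ^ 2 - vΨ₃ W x ^ 3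

lemma eval_Ψ₂Sq_eq (x : R) : W.Ψ₂Sq.eval x = vΨ₂Sq W x := by
  simp [Ψ₂Sq, vΨ₂Sq]

lemma eval_Φ_two_eq (x : R) : (W.Φ 2).eval x = vΦ₂ W x := by
  simp [Φ_two, vΦ₂]

lemma eval_Ψ₃_eq (x : R) : W.Ψ₃.eval x = vΨ₃ W x := by
  simp [Ψ₃, vΨ₃]

lemma eval_preΨ₄_eq (x : R) : W.preΨ₄.eval x = vpreΨ₄ W x := by
  simp [preΨ₄, vpreΨ₄]

lemma preΨ'_five : W.preΨ' 5 = W.preΨ₄ * W.Ψ₂Sq ^ 2 - W.Ψ₃ ^ 3 := by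
  have h := W.preΨ'_odd 0
  simpa using h

lemma eval_preΨ'_five_eq (x : R) : (W.preΨ' 5).eval x = vΨ₅ W x := by
  rw [preΨ'_five]
  simp [vΨ₅, eval_Ψ₂Sq_eq, eval_Ψ₃_eq, eval_preΨ₄_eq]

lemma vΨ₃_eq (x : R) : vΨ₃ W x = x * vΨ₂Sq W x - vΦ₂ W x := by
  simp only [vΨ₃, vΨ₂Sq, vΦ₂]; ring

/-- first duplication identity: `Ψ₂Sq(x)³ Ψ₂Sq(Φ₂/Ψ₂Sq) = preΨ₄(x)²`, homogenised. -/
lemma dup_identity_one (x : R) :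
    4 * vΦ₂ W x ^ 3 + W.b₂ * vΦ₂ W x ^ 2 * vΨ₂Sq W x + 2 * W.b₄ * vΦ₂ W x * vΨ₂Sq W x ^ 2
      + W.b₆ * vΨ₂Sq W x ^ 3 = vpreΨ₄ W x ^ 2 := by
  have h := W.b_relation
  simp only [vΦ₂, vΨ₂Sq, vpreΨ₄]
  generalize W.b₂ = b2 at *
  generalize W.b₄ = b4 at *
  generalize W.b₆ = b6 at *
  generalize W.b₈ = b8 at *
  linear_combination (-13*x^8 - 8*x^7*b2 - x^6*b2^2 - 28*x^6*b4 - 6*x^5*b2*b4 - 38*x^5*b6 - 7*x^4*b2*b6 - 8*x^4*b4^2 - 22*x^4*b8 - 4*x^3*b2*b8 - 16*x^3*b4*b6 - 8*x^2*b4*b8 - 7*x^2*b6^2 - 6*x*b6*b8 - b8^2) * h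

/-- second duplication identity: `Ψ₂Sq(x)⁴ (Φ₂(D) - x Ψ₂Sq(D)) = -Ψ₃(x) Ψ₅(x)` for
`D = Φ₂(x)/Ψ₂Sq(x)`, homogenised. -/
lemma dup_identity_two (x : R) :
    vΦ₂ W x ^ 4 - W.b₄ * vΦ₂ W x ^ 2 * vΨ₂Sq W x ^ 2 - 2 * W.b₆ * vΦ₂ W x * vΨ₂Sq W x ^ 3
      - W.b₈ * vΨ₂Sq W x ^ 4 - x * vΨ₂Sq W x * vpreΨ₄ W x ^ 2 = - (vΨ₃ W x * vΨ₅ W x) := by
  have h := W.b_relation
  simp only [vΦ₂, vΨ₂Sq, vpreΨ₄, vΨ₅, vΨ₃]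
  generalize W.b₂ = b2 at *
  generalize W.b₄ = b4 at *
  generalize W.b₆ = b6 at *
  generalize W.b₈ = b8 at *
  linear_combination (-4*x^12 - 5*x^11*b2 - x^10*b2^2 - 42*x^10*b4 - 16*x^9*b2*b4 - 93*x^9*b6 - x^8*b2^2*b4 - 36*x^8*b2*b6 - 28*x^8*b4^2 - 72*x^8*b8 - 3*x^7*b2^2*b6 - 4*x^7*b2*b4^2 - 30*x^7*b2*b8 - 84*x^7*b4*b6 - 3*x^6*b2^2*b8 - 14*x^6*b2*b4*b6 - 4*x^6*b4^3 - 60*x^6*b4*b8 - 39*x^6*b6^2 - 12*x^5*b2*b4*b8 - 7*x^5*b2*b6^2 - 16*x^5*b4^2*b6 - 38*x^5*b6*b8 - 8*x^4*b2*b6*b8 - 12*x^4*b4^2*b8 - 15*x^4*b4*b6^2 - 4*x^4*b8^2 - x^3*b2*b8^2 - 16*x^3*b4*b6*b8 - 4*x^3*b6^3 - 2*x^2*b4*b8^2 - 5*x^2*b6^2*b8 - x*b6*b8^2) * h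

/-- `Ψ₂Sq(D)` in terms of `x`, when `D Ψ₂Sq(x) = Φ₂(x)`. -/
lemma vΨ₂Sq_dup {x D : R} (hD : D * vΨ₂Sq W x = vΦ₂ W x) :
    vΨ₂Sq W x ^ 3 * vΨ₂Sq W D = vpreΨ₄ W x ^ 2 := by
  rw [← dup_identity_one, ← hD]
  simp only [vΨ₂Sq]; ring

/-- `Φ₂(D) - x Ψ₂Sq(D)` in terms of `x`, when `D Ψ₂Sq(x) = Φ₂(x)`. -/
lemma vΦ₂_dup {x D : R} (hD : D * vΨ₂Sq W x = vΦ₂ W x) :
    vΨ₂Sq W x ^ 4 * (vΦ₂ W D - x * vΨ₂Sq W D) = - (vΨ₃ W x * vΨ₅ W x) := by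
  rw [← dup_identity_two, mul_sub]
  have h1 : vΨ₂Sq W x ^ 4 * (x * vΨ₂Sq W D) = x * vΨ₂Sq W x * vpreΨ₄ W x ^ 2 := by
    rw [← vΨ₂Sq_dup W hD]; ring
  rw [h1, ← hD]
  simp only [vΦ₂]; ring

/-- the curve equation -/
def vpol (x y : R) : R :=
  y ^ 2 + W.a₁ * x * y + W.a₃ * y - (x ^ 3 + W.a₂ * x ^ 2 + W.a₄ * x + W.a₆)

/-- `∂W/∂X` -/
def vWX (x y : R) : R := W.a₁ * y - (3 * x ^ 2 + 2 * W.a₂ * x + W.a₄)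

/-- `∂W/∂Y` -/
def vWY (x y : R) : R := 2 * y + W.a₁ * x + W.a₃

lemma vΨ₂Sq_eq_xy (x y : R) : vΨ₂Sq W x = vWY W x y ^ 2 - 4 * vpol W x y := by
  simp only [vΨ₂Sq, vWY, vpol, b₂, b₄, b₆]; ring

lemma vΦ₂_eq_xy (x y : R) :
    vΦ₂ W x = vWX W x y ^ 2 - W.a₁ * vWX W x y * vWY W x y - (W.a₂ + 2 * x) * vWY W x y ^ 2
      + (8 * x + W.b₂) * vpol W x y := by
  simp only [vΦ₂, vWX, vWY, vpol, b₂, b₄, b₆, b₈]; ring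

lemma vΨ₃_eq_xy (x y : R) :
    vΨ₃ W x = - vWX W x y ^ 2 + W.a₁ * vWX W x y * vWY W x y + (W.a₂ + 3 * x) * vWY W x y ^ 2
      - (12 * x + W.b₂) * vpol W x y := by
  simp only [vΨ₃, vWX, vWY, vpol, b₂, b₄, b₆, b₈]; ring

end values

end Fermat.Agent.S51
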