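/-
M3 / S51, task C1 (helper23): 2-, 3-, 4- and 5-torsion points of a Weierstrass curve over a
field, in terms of the division polynomials evaluated at the `x`-coordinate.
-/
import Fermat.Agent.S51.TorsionFormulas

set_option autoImplicit false

namespace Fermat.Agent.S51

open WeierstrassCurve WeierstrassCurve.Affine

variable {F : Type*} [Field F] {W : Affine F}

lemma equation_iff_vpol (x y : F) : W.Equation x y ↔ vpol W x y = 0 := by
  rw [Affine.equation_iff']; rfl

lemma nonsingular_iff_v (x y : F) :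
    W.Nonsingular x y ↔ vpol W x y = 0 ∧ (vWX W x y ≠ 0 ∨ vWY W x y ≠ 0) := by
  rw [Affine.nonsingular_iff', equation_iff_vpol]; rfl

lemma eq_negY_iff (x y : F) : y = W.negY x y ↔ vWY W x y = 0 := by
  simp only [Affine.negY, vWY]
  constructor <;> intro h <;> linear_combination h

/-- On the curve, `Ψ₂Sq(x) = W_Y(x,y)²`. -/
lemma vΨ₂Sq_eq_of_equation {x y : F} (h : W.Equation x y) : vΨ₂Sq W x = vWY W x y ^ 2 := by
  rw [vΨ₂Sq_eq_xy W x y, (equation_iff_vpol x y).1 h]; ring

lemma vΨ₂Sq_eq_zero_iff {x y : F} (h : W.Equation x y) : vΨ₂Sq W x = 0 ↔ y = W.negY x y := by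
  rw [vΨ₂Sq_eq_of_equation h, eq_negY_iff, sq_eq_zero_iff]

lemma some_eq_some_of_X_eq {x x' y : F} (h : W.Nonsingular x y) (e : x = x') :
    ∃ h', Point.some x y h = Point.some x' y h' := by
  subst e; exact ⟨h, rfl⟩

/-- `x(Q) = x(P)` and `Q ≠ P` force `Q = -P`; conversely `Q = -P` forces `x(Q) = x(P)`. -/
lemma some_eq_neg_some_iff {x₁ y₁ x₂ y₂ : F} {h₁ : W.Nonsingular x₁ y₁} {h₂ : W.Nonsingular x₂ y₂}
    (hne : Point.some x₁ y₁ h₁ ≠ Point.some x₂ y₂ h₂) :
    Point.some x₁ y₁ h₁ = - Point.some x₂ y₂ h₂ ↔ x₁ = x₂ := by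
  rw [Point.X_eq_iff (h₁ := h₁) (h₂ := h₂)]
  constructor
  · intro h; exact Or.inr h
  · rintro (h | h)
    · exact absurd h hne
    · exact h

/-- At a 2-torsion point, `Ψ₃ ≠ 0`. -/
lemma vΨ₃_ne_zero_of_vΨ₂Sq_eq_zero {x y : F} (h : W.Nonsingular x y) (hx : vΨ₂Sq W x = 0) :
    vΨ₃ W x ≠ 0 := by
  have hy : vWY W x y = 0 := (eq_negY_iff x y).1 ((vΨ₂Sq_eq_zero_iff h.1).1 hx)
  have hWX : vWX W x y ≠ 0 := by
    rcases ((nonsingular_iff_v x y).1 h).2 with h' | h'
    · exact h'
    · exact absurd hy h'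
  have h3 : vΨ₃ W x = - vWX W x y ^ 2 := by
    rw [vΨ₃_eq_xy W x y, hy, (equation_iff_vpol x y).1 h.1]; ring
  rw [h3]
  exact neg_ne_zero.2 (pow_ne_zero 2 hWX)

variable [DecidableEq F]

/-- `2P = 0 ↔ Ψ₂Sq(x(P)) = 0`. -/
lemma some_add_self_eq_zero_iff {x y : F} (h : W.Nonsingular x y) :
    Point.some x y h + Point.some x y h = 0 ↔ vΨ₂Sq W x = 0 := by
  rw [vΨ₂Sq_eq_zero_iff h.1]
  constructor
  · intro h0
    by_contra hy
    rw [Point.add_self_of_Y_ne hy] at h0
    exact Point.some_ne_zero _ h0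
  · intro hy
    exact Point.add_self_of_Y_eq hy

/-- duplication formula for the `x`-coordinate. -/
lemma addX_self_eq {x y : F} (h : W.Equation x y) (hy : y ≠ W.negY x y) :
    W.addX x x (W.slope x x y y) = vΦ₂ W x / vΨ₂Sq W x := by
  have hWY : vWY W x y ≠ 0 := fun h0 => hy ((eq_negY_iff x y).2 h0)
  have hden : y - W.negY x y = vWY W x y := by simp only [Affine.negY, vWY]; ring
  rw [Affine.slope_of_Y_ne rfl hy, hden, vΨ₂Sq_eq_of_equation h, vΦ₂_eq_xy W x y,
    (equation_iff_vpol x y).1 h, Affine.addX]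
  have hnum : 3 * x ^ 2 + 2 * W.a₂ * x + W.a₄ - W.a₁ * y = - vWX W x y := by
    simp only [vWX]; ring
  rw [hnum]
  field_simp
  ring

/-- If `2P ≠ 0` then `x(2P) = Φ₂(x)/Ψ₂Sq(x)`. -/
lemma some_add_self_of_ne {x y : F} (h : W.Nonsingular x y) (hx : vΨ₂Sq W x ≠ 0) :
    ∃ y' h', Point.some x y h + Point.some x y h = Point.some (vΦ₂ W x / vΨ₂Sq W x) y' h' := by
  have hy : y ≠ W.negY x y := fun h0 => hx ((vΨ₂Sq_eq_zero_iff h.1).2 h0)
  rw [Point.add_self_of_Y_ne hy]
  obtain ⟨h', e⟩ := some_eq_some_of_X_eq (nonsingular_add h h fun hxy => hy hxy.right)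
    (addX_self_eq h.1 hy)
  exact ⟨_, h', e⟩

/-- `3P = 0 ↔ Ψ₃(x(P)) = 0`. -/
theorem three_nsmul_some_eq_zero_iff {x y : F} (h : W.Nonsingular x y) :
    3 • Point.some x y h = 0 ↔ vΨ₃ W x = 0 := by
  have h3 : 3 • Point.some x y h
      = (Point.some x y h + Point.some x y h) + Point.some x y h := by abel
  by_cases hx : vΨ₂Sq W x = 0
  · have h2 := (some_add_self_eq_zero_iff h).2 hx
    rw [h3, h2, zero_add]
    constructor
    · intro h0; exact absurd h0 (Point.some_ne_zero h)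
    · intro h0; exact absurd h0 (vΨ₃_ne_zero_of_vΨ₂Sq_eq_zero h hx)
  · obtain ⟨y', h', e⟩ := some_add_self_of_ne h hx
    have hne : Point.some _ y' h' ≠ Point.some x y h := by
      intro he
      rw [← e] at he
      exact Point.some_ne_zero h (by simp at he)
    rw [h3, e, add_eq_zero_iff_eq_neg, some_eq_neg_some_iff hne, vΨ₃_eq, div_eq_iff hx]
    constructor
    · intro h0; linear_combination -h0
    · intro h0; linear_combination -h0

/-- `4P = 0 ↔ Ψ₂Sq(x(P)) preΨ₄(x(P)) = 0`. -/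
theorem four_nsmul_some_eq_zero_iff {x y : F} (h : W.Nonsingular x y) :
    4 • Point.some x y h = 0 ↔ vΨ₂Sq W x * vpreΨ₄ W x = 0 := by
  have h4 : 4 • Point.some x y h
      = (Point.some x y h + Point.some x y h) + (Point.some x y h + Point.some x y h) := by abel
  by_cases hx : vΨ₂Sq W x = 0
  · rw [h4, (some_add_self_eq_zero_iff h).2 hx]; simp [hx]
  · obtain ⟨y', h', e⟩ := some_add_self_of_ne h hx
    rw [h4, e, some_add_self_eq_zero_iff h']
    have hD : (vΦ₂ W x / vΨ₂Sq W x) * vΨ₂Sq W x = vΦ₂ W x := div_mul_cancel₀ _ hx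
    have key := vΨ₂Sq_dup W hD
    constructor
    · intro h0
      rw [h0, mul_zero] at key
      exact mul_eq_zero.2 (Or.inr ((pow_eq_zero_iff (two_ne_zero)).1 key.symm))
    · intro h0
      have hpre : vpreΨ₄ W x = 0 := (mul_eq_zero.1 h0).resolve_left hx
      rw [hpre] at key
      have := mul_eq_zero.1 (key.trans (by ring))
      exact this.resolve_left (pow_ne_zero 3 hx)

/-- `5P = 0 ↔ Ψ₅(x(P)) = 0`. -/
theorem five_nsmul_some_eq_zero_iff {x y : F} (h : W.Nonsingular x y) :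
    5 • Point.some x y h = 0 ↔ vΨ₅ W x = 0 := by
  have hne := Point.some_ne_zero h
  have h3iff := three_nsmul_some_eq_zero_iff h
  have h4iff := four_nsmul_some_eq_zero_iff h
  by_cases h4 : 4 • Point.some x y h = 0
  · have hprod := h4iff.1 h4
    have h3 : vΨ₃ W x ≠ 0 := by
      intro h0
      have h3P := h3iff.2 h0
      generalize Point.some x y h = P at *
      have : P = 4 • P - 3 • P := by abel
      rw [h4, h3P, sub_zero] at this
      exact hne this
    have h5 : 5 • Point.some x y h = Point.some x y h := by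
      generalize Point.some x y h = P at *
      have : 5 • P = 4 • P + P := by abel
      rw [this, h4, zero_add]
    rw [h5]
    constructor
    · intro h0; exact absurd h0 hne
    · intro h0
      have h5v : vΨ₅ W x = - vΨ₃ W x ^ 3 := by
        have : vpreΨ₄ W x * vΨ₂Sq W x ^ 2 = (vΨ₂Sq W x * vpreΨ₄ W x) * vΨ₂Sq W x := by ring
        rw [vΨ₅, this, hprod, zero_mul, zero_sub]
      rw [h5v] at h0
      exact absurd ((pow_eq_zero_iff (three_ne_zero)).1 (neg_eq_zero.1 h0)) h3
  · have hprod : vΨ₂Sq W x * vpreΨ₄ W x ≠ 0 := fun h0 => h4 (h4iff.2 h0)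
    have hx : vΨ₂Sq W x ≠ 0 := left_ne_zero_of_mul hprod
    have hpre : vpreΨ₄ W x ≠ 0 := right_ne_zero_of_mul hprod
    obtain ⟨y₂, h₂, e₂⟩ := some_add_self_of_ne h hx
    have hD : (vΦ₂ W x / vΨ₂Sq W x) * vΨ₂Sq W x = vΦ₂ W x := div_mul_cancel₀ _ hx
    generalize vΦ₂ W x / vΨ₂Sq W x = D at *
    have hx₂ : vΨ₂Sq W D ≠ 0 := by
      have key := vΨ₂Sq_dup W hD
      intro h0
      rw [h0, mul_zero] at key
      exact hpre ((pow_eq_zero_iff (two_ne_zero)).1 key.symm)
    obtain ⟨y₄, h₄, e₄⟩ := some_add_self_of_ne h₂ hx₂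
    have key : vΦ₂ W D / vΨ₂Sq W D = x ↔ vΨ₃ W x * vΨ₅ W x = 0 := by
      rw [div_eq_iff hx₂]
      have k2 := vΦ₂_dup W hD
      constructor
      · intro h0
        rw [h0, sub_self, mul_zero] at k2
        exact neg_eq_zero.1 k2.symm
      · intro h0
        rw [h0, neg_zero] at k2
        have := (mul_eq_zero.1 k2).resolve_left (pow_ne_zero 4 hx)
        linear_combination this
    have hX := Point.X_eq_iff (h₁ := h₄) (h₂ := h)
    rw [← e₄, ← e₂, key] at hX
    generalize Point.some x y h = P at *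
    have e1 : P + P + (P + P) = P ↔ 3 • P = 0 := by
      have : 3 • P = P + P + (P + P) - P := by abel
      rw [this, sub_eq_zero]
    have e2 : P + P + (P + P) = -P ↔ 5 • P = 0 := by
      have : 5 • P = P + P + (P + P) + P := by abel
      rw [this, add_eq_zero_iff_eq_neg]
    rw [e1, e2, h3iff] at hX
    constructor
    · intro h5
      rcases mul_eq_zero.1 (hX.2 (Or.inr h5)) with h0 | h0
      · exfalso
        have h3P := h3iff.2 h0
        have : P = 2 • (3 • P) - 5 • P := by abel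
        rw [h3P, h5] at this
        exact hne (by simpa using this)
      · exact h0
    · intro h0
      rcases hX.1 (by rw [h0, mul_zero]) with h3 | h5
      · exfalso
        rw [vΨ₅, h3] at h0
        have : vpreΨ₄ W x * vΨ₂Sq W x ^ 2 = 0 := by linear_combination h0
        rcases mul_eq_zero.1 this with h1 | h1
        · exact hpre h1
        · exact hx ((pow_eq_zero_iff (two_ne_zero)).1 h1)
      · exact h5

end Fermat.Agent.S51
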