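/-
M3 / S51, task C2 (helper23): existence and counting of 3- and 5-torsion points over an
algebraically closed field, and the shape of proper nonzero subspaces of `E[p]`.
-/
import Fermat.Agent.S51.TorsionPoints
import Mathlib.FieldTheory.IsAlgClosed.Basic
import Mathlib.FieldTheory.Finiteness
import Mathlib.LinearAlgebra.FiniteDimensional.Lemmas
import Mathlib.Algebra.Module.ZMod
import Mathlib.Algebra.Field.ZMod
import Mathlib.Algebra.Module.Torsion.Basic

set_option autoImplicit false

namespace Fermat.Agent.S51

open WeierstrassCurve WeierstrassCurve.Affine Polynomial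

section linalg

/-- A proper nonzero subspace of an `𝔽_p`-vector space with at most `p²` elements is a line. -/
theorem exists_generator_of_ne_bot_of_ne_top {p : ℕ} [Fact p.Prime] {V : Type*} [AddCommGroup V]
    [Module (ZMod p) V] [Finite V] (hV : Nat.card V ≤ p ^ 2) (N : Submodule (ZMod p) V)
    (hbot : N ≠ ⊥) (htop : N ≠ ⊤) :
    ∃ v ∈ N, v ≠ 0 ∧ ∀ w ∈ N, ∃ k : ℕ, w = k • v := by
  have hp : p.Prime := Fact.out
  have hcard : Nat.card V = p ^ Module.finrank (ZMod p) V := by
    rw [Module.natCard_eq_pow_finrank (K := ZMod p), Nat.card_zmod]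
  have hdim : Module.finrank (ZMod p) V ≤ 2 := by
    rw [hcard] at hV
    exact (Nat.pow_le_pow_iff_right hp.one_lt).1 hV
  have h1 : Module.finrank (ZMod p) N < Module.finrank (ZMod p) V := Submodule.finrank_lt htop
  have h0 : 0 < Module.finrank (ZMod p) N := by
    rw [Module.finrank_pos_iff]
    exact (Submodule.nontrivial_iff_ne_bot).2 hbot
  have hN1 : Module.finrank (ZMod p) N = 1 := by omega
  obtain ⟨v, hv, hgen⟩ := finrank_eq_one_iff'.1 hN1
  refine ⟨v.1, v.2, fun h => hv (Subtype.ext h), fun w hw => ?_⟩
  obtain ⟨c, hc⟩ := hgen ⟨w, hw⟩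
  refine ⟨c.val, ?_⟩
  have : (c.val : ZMod p) • v = ⟨w, hw⟩ := by
    have : NeZero p := ⟨hp.ne_zero⟩
    rw [ZMod.natCast_zmod_val]; exact hc
  rw [Nat.cast_smul_eq_nsmul] at this
  have h2 := congrArg Subtype.val this
  simpa using h2.symm

end linalg

section count

variable {K : Type*} [Field K] (W : Affine K)

/-- the quadratic in `Y` cut out by the Weierstrass equation at a given `x` -/
noncomputable def yPoly (x : K) : K[X] :=
  C 1 * X ^ 2 + C (W.a₁ * x + W.a₃) * X + C (-(x ^ 3 + W.a₂ * x ^ 2 + W.a₄ * x + W.a₆))

lemma yPoly_degree (x : K) : (yPoly W x).degree = 2 := by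
  unfold yPoly; exact degree_quadratic one_ne_zero

lemma yPoly_ne_zero (x : K) : yPoly W x ≠ 0 := by
  intro h
  have := yPoly_degree W x
  rw [h, degree_zero] at this
  exact absurd this (by decide)

lemma yPoly_natDegree (x : K) : (yPoly W x).natDegree = 2 :=
  natDegree_eq_of_degree_eq_some (yPoly_degree W x)

lemma yPoly_isRoot_iff (x y : K) : (yPoly W x).IsRoot y ↔ W.Equation x y := by
  rw [Affine.equation_iff', IsRoot.def]
  simp only [yPoly, eval_add, eval_mul, eval_C, eval_pow, eval_X]
  constructor <;> intro h <;> linear_combination h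

/-- over an algebraically closed field every `x` is the abscissa of a point. -/
lemma exists_equation_of_X [IsAlgClosed K] (x : K) : ∃ y, W.Equation x y := by
  obtain ⟨y, hy⟩ := IsAlgClosed.exists_root (yPoly W x) (by rw [yPoly_degree]; decide)
  exact ⟨y, (yPoly_isRoot_iff W x y).1 hy⟩

lemma exists_nonsingular_of_X [IsAlgClosed K] [W.IsElliptic] (x : K) : ∃ y, W.Nonsingular x y := by
  obtain ⟨y, hy⟩ := exists_equation_of_X W x
  exact ⟨y, (W.equation_iff_nonsingular).1 hy⟩

/-- the finite set of affine points whose abscissa is a root of `p`. -/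
noncomputable def pointsOver [DecidableEq K] (p : K[X]) : Finset (K × K) :=
  p.roots.toFinset.biUnion fun x => (yPoly W x).roots.toFinset.image fun y => (x, y)

lemma card_pointsOver_le [DecidableEq K] (p : K[X]) : (pointsOver W p).card ≤ p.natDegree * 2 := by
  unfold pointsOver
  refine (Finset.card_biUnion_le_card_mul _ _ 2 ?_).trans ?_
  · intro x _
    refine Finset.card_image_le.trans ?_
    refine (Multiset.toFinset_card_le _).trans ?_
    exact (card_roots' _).trans (yPoly_natDegree W x).le
  · exact Nat.mul_le_mul_right _ ((Multiset.toFinset_card_le _).trans (card_roots' _))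

lemma mem_pointsOver [DecidableEq K] {p : K[X]} (hp : p ≠ 0) {x y : K} (hx : p.eval x = 0)
    (hxy : W.Equation x y) : (x, y) ∈ pointsOver W p := by
  unfold pointsOver
  rw [Finset.mem_biUnion]
  refine ⟨x, ?_, ?_⟩
  · rw [Multiset.mem_toFinset, mem_roots hp]; exact hx
  · rw [Finset.mem_image]
    refine ⟨y, ?_, rfl⟩
    rw [Multiset.mem_toFinset, mem_roots (yPoly_ne_zero W x)]
    exact (yPoly_isRoot_iff W x y).2 hxy

/-- coordinates of a point -/
def coords : W.Point → Option (K × K)
  | .zero => none
  | .some x y _ => some (x, y)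

lemma coords_injective : Function.Injective (coords W) := by
  rintro (_ | ⟨x, y, h⟩) (_ | ⟨x', y', h'⟩) hPQ
  · rfl
  · simp [coords] at hPQ
  · simp [coords] at hPQ
  · simp only [coords, Option.some.injEq, Prod.mk.injEq] at hPQ
    obtain ⟨rfl, rfl⟩ := hPQ
    rfl

/-- A set of points whose abscissas are all roots of a fixed nonzero polynomial `p` is finite,
of size at most `1 + 2 deg p`. -/
theorem finite_and_ncard_le_of_roots [DecidableEq K] {p : K[X]} (hp : p ≠ 0) (T : Set W.Point)
    (hT : ∀ x y h, Point.some x y h ∈ T → p.eval x = 0) :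
    T.Finite ∧ T.ncard ≤ 1 + 2 * p.natDegree := by
  classical
  set U : Finset (Option (K × K)) := insert none ((pointsOver W p).image some) with hU
  have hsub : coords W '' T ⊆ (U : Set (Option (K × K))) := by
    rintro _ ⟨P, hP, rfl⟩
    rcases P with _ | ⟨x, y, h⟩
    · simp [hU, coords]
    · have := mem_pointsOver W hp (hT x y h hP) h.1
      simp only [hU, coords, Finset.coe_insert, Finset.coe_image, Set.mem_insert_iff,
        Set.mem_image, Finset.mem_coe, reduceCtorEq, false_or]
      exact ⟨(x, y), this, rfl⟩
  have hfinIm : (coords W '' T).Finite := (Finset.finite_toSet U).subset hsub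
  have hfin : T.Finite := hfinIm.of_finite_image (coords_injective W).injOn
  refine ⟨hfin, ?_⟩
  rw [← Set.ncard_image_of_injective T (coords_injective W)]
  refine (Set.ncard_le_ncard hsub (Finset.finite_toSet U)).trans ?_
  rw [Set.ncard_coe_finset]
  refine (Finset.card_insert_le _ _).trans ?_
  have := (Finset.card_image_le (s := pointsOver W p) (f := some)).trans (card_pointsOver_le W p)
  omega

end count

end Fermat.Agent.S51
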