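/-
M3 / S51, tasks C1 + C2 (helper23): interface file.

For a Weierstrass curve `W` over a field `F` and an affine point `P = (x, y)`:
* `two_nsmul_eq_zero_iff`, `three_nsmul_eq_zero_iff`, `five_nsmul_eq_zero_iff`:
  `n • P = 0 ↔ Ψₙ(x) = 0` for `n = 2, 3, 5` (Mathlib's `Ψ₂Sq`, `Ψ₃`, `preΨ' 5`);
* `add_self_X`: `x(2P) = Φ₂(x)/Ψ₂Sq(x)`;
* over an algebraically closed field in which `3` (resp. `5`) is invertible, for an elliptic curve:
  `E[3]`, `E[5]` are nontrivial, finite, of cardinality at most `9`, `25`;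
* a proper nonzero `𝔽_p`-subspace of `E[p]` (`p = 3, 5`) is generated by one point, and the
  abscissas occurring in it are described explicitly.
-/
import Fermat.Agent.S51.TorsionCount

set_option autoImplicit false

namespace Fermat.Agent.S51

open WeierstrassCurve WeierstrassCurve.Affine Polynomial

section field

variable {F : Type*} [Field F] [DecidableEq F] {W : Affine F}

theorem two_nsmul_eq_zero_iff {x y : F} (h : W.Nonsingular x y) :
    2 • Point.some x y h = 0 ↔ W.Ψ₂Sq.eval x = 0 := by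
  rw [two_nsmul, some_add_self_eq_zero_iff, eval_Ψ₂Sq_eq]

theorem three_nsmul_eq_zero_iff {x y : F} (h : W.Nonsingular x y) :
    3 • Point.some x y h = 0 ↔ W.Ψ₃.eval x = 0 := by
  rw [three_nsmul_some_eq_zero_iff, eval_Ψ₃_eq]

theorem five_nsmul_eq_zero_iff {x y : F} (h : W.Nonsingular x y) :
    5 • Point.some x y h = 0 ↔ (W.preΨ' 5).eval x = 0 := by
  rw [five_nsmul_some_eq_zero_iff, eval_preΨ'_five_eq]

/-- duplication formula: if `2P ≠ 0` then `x(2P) = Φ₂(x)/Ψ₂Sq(x)`. -/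
theorem add_self_X {x y : F} (h : W.Nonsingular x y) (hx : W.Ψ₂Sq.eval x ≠ 0) :
    ∃ y' h', 2 • Point.some x y h = Point.some ((W.Φ 2).eval x / W.Ψ₂Sq.eval x) y' h' := by
  rw [eval_Ψ₂Sq_eq] at hx
  rw [two_nsmul, eval_Ψ₂Sq_eq, eval_Φ_two_eq]
  exact some_add_self_of_ne h hx

/-- multiples of a point of order `3`: only one abscissa occurs. -/
theorem nsmul_of_three_nsmul_eq_zero {x y : F} (h : W.Nonsingular x y)
    (h3 : 3 • Point.some x y h = 0) (k : ℕ) :
    k • Point.some x y h = 0 ∨ ∃ y' h', k • Point.some x y h = Point.some x y' h' := by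
  have hk : k • Point.some x y h = (k % 3) • Point.some x y h := by
    conv_lhs => rw [← Nat.div_add_mod k 3, add_nsmul, mul_nsmul, h3, nsmul_zero, zero_add]
  have hlt : k % 3 < 3 := Nat.mod_lt _ (by norm_num)
  rw [hk]
  interval_cases (k % 3)
  · left; simp
  · right; exact ⟨y, h, one_nsmul _⟩
  · right
    have key : ∀ P : W.Point, 3 • P = 0 → 2 • P = -P := by
      intro P h3; rw [eq_neg_iff_add_eq_zero, ← h3]; abel
    exact ⟨W.negY x y, (nonsingular_neg ..).mpr h, by rw [key _ h3, Point.neg_some]⟩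

/-- multiples of a point of order `5`: only the abscissas `x` and `Φ₂(x)/Ψ₂Sq(x)` occur. -/
theorem nsmul_of_five_nsmul_eq_zero {x y : F} (h : W.Nonsingular x y)
    (h5 : 5 • Point.some x y h = 0) (k : ℕ) :
    k • Point.some x y h = 0 ∨ (∃ y' h', k • Point.some x y h = Point.some x y' h') ∨
      ∃ y' h', k • Point.some x y h = Point.some ((W.Φ 2).eval x / W.Ψ₂Sq.eval x) y' h' := by
  have hk : k • Point.some x y h = (k % 5) • Point.some x y h := by
    conv_lhs => rw [← Nat.div_add_mod k 5, add_nsmul, mul_nsmul, h5, nsmul_zero, zero_add]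
  have hlt : k % 5 < 5 := Nat.mod_lt _ (by norm_num)
  have hne := Point.some_ne_zero h
  -- `2P ≠ 0`
  have h2 : W.Ψ₂Sq.eval x ≠ 0 := by
    intro h0
    have h2P := (two_nsmul_eq_zero_iff h).2 h0
    generalize Point.some x y h = P at *
    have : P = 5 • P - 2 • (2 • P) := by abel
    rw [h5, h2P] at this
    exact hne (by simpa using this)
  obtain ⟨y₂, h₂, e₂⟩ := add_self_X h h2
  rw [hk]
  interval_cases (k % 5)
  · left; simp
  · right; left; exact ⟨y, h, one_nsmul _⟩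
  · right; right; exact ⟨y₂, h₂, e₂⟩
  · right; right
    have key : ∀ P : W.Point, (5 : ℕ) • P = 0 → (3 : ℕ) • P = -((2 : ℕ) • P) := by
      intro P h5; rw [eq_neg_iff_add_eq_zero, ← h5]; abel
    exact ⟨W.negY _ y₂, (nonsingular_neg ..).mpr h₂, by rw [key _ h5, e₂, Point.neg_some]⟩
  · right; left
    have key : ∀ P : W.Point, 5 • P = 0 → 4 • P = -P := by
      intro P h5; rw [eq_neg_iff_add_eq_zero, ← h5]; abel
    exact ⟨W.negY x y, (nonsingular_neg ..).mpr h, by rw [key _ h5, Point.neg_some]⟩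

end field

section torsionBy

variable {K : Type*} [Field K] [DecidableEq K] (W : Affine K)

theorem mem_torsionBy_natCast_iff (n : ℕ) (P : W.Point) :
    P ∈ Submodule.torsionBy ℤ W.Point (n : ℤ) ↔ n • P = 0 := by
  rw [Submodule.mem_torsionBy_iff, natCast_zsmul]

/-- `E[n]` is finite of size at most `1 + 2 deg p` as soon as the abscissas of the `n`-torsion
points are roots of the nonzero polynomial `p`. -/
theorem finite_and_card_torsionBy_le (n : ℕ) {p : K[X]} (hp : p ≠ 0)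
    (hroot : ∀ x y (h : W.Nonsingular x y), n • Point.some x y h = 0 → p.eval x = 0) :
    Finite (Submodule.torsionBy ℤ W.Point (n : ℤ)) ∧
      Nat.card (Submodule.torsionBy ℤ W.Point (n : ℤ)) ≤ 1 + 2 * p.natDegree := by
  obtain ⟨hfin, hcard⟩ := finite_and_ncard_le_of_roots W hp
    ((Submodule.torsionBy ℤ W.Point (n : ℤ) : Submodule ℤ W.Point) : Set W.Point)
    (fun x y h hmem => hroot x y h ((mem_torsionBy_natCast_iff W n _).1 hmem))
  refine ⟨hfin.to_subtype, ?_⟩
  rw [← Nat.card_coe_set_eq] at hcard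
  exact hcard

theorem finite_torsionBy_three (h3 : (3 : K) ≠ 0) :
    Finite (Submodule.torsionBy ℤ W.Point ((3 : ℕ) : ℤ)) :=
  (finite_and_card_torsionBy_le W 3 (W.Ψ₃_ne_zero h3)
    (fun _ _ h => (three_nsmul_eq_zero_iff h).1)).1

theorem card_torsionBy_three_le (h3 : (3 : K) ≠ 0) :
    Nat.card (Submodule.torsionBy ℤ W.Point ((3 : ℕ) : ℤ)) ≤ 3 ^ 2 := by
  have := (finite_and_card_torsionBy_le W 3 (W.Ψ₃_ne_zero h3)
    (fun _ _ h => (three_nsmul_eq_zero_iff h).1)).2
  rw [W.natDegree_Ψ₃ h3] at this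
  exact this

omit [DecidableEq K] in
lemma natDegree_preΨ'_five (h5 : (5 : K) ≠ 0) : (W.preΨ' 5).natDegree = 12 := by
  have h5' : ((5 : ℕ) : K) ≠ 0 := by exact_mod_cast h5
  rw [W.natDegree_preΨ' h5']
  have : ¬ Even 5 := by decide
  simp [this]

theorem finite_torsionBy_five (h5 : (5 : K) ≠ 0) :
    Finite (Submodule.torsionBy ℤ W.Point ((5 : ℕ) : ℤ)) :=
  (finite_and_card_torsionBy_le W 5 (W.preΨ'_ne_zero (n := 5) (by exact_mod_cast h5))
    (fun _ _ h => (five_nsmul_eq_zero_iff h).1)).1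

theorem card_torsionBy_five_le (h5 : (5 : K) ≠ 0) :
    Nat.card (Submodule.torsionBy ℤ W.Point ((5 : ℕ) : ℤ)) ≤ 5 ^ 2 := by
  have h5' : ((5 : ℕ) : K) ≠ 0 := by exact_mod_cast h5
  have := (finite_and_card_torsionBy_le W 5 (W.preΨ'_ne_zero h5')
    (fun _ _ h => (five_nsmul_eq_zero_iff h).1)).2
  rw [natDegree_preΨ'_five W h5] at this
  exact this

variable [IsAlgClosed K] [W.IsElliptic]

/-- there is a point of exact order `3` -/
theorem exists_order_three (h3 : (3 : K) ≠ 0) :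
    ∃ x y, ∃ h : W.Nonsingular x y, 3 • Point.some x y h = 0 := by
  obtain ⟨x, hx⟩ := IsAlgClosed.exists_root W.Ψ₃ (by
    rw [degree_eq_natDegree (W.Ψ₃_ne_zero h3), W.natDegree_Ψ₃ h3]; norm_num)
  obtain ⟨y, hy⟩ := exists_nonsingular_of_X W x
  exact ⟨x, y, hy, (three_nsmul_eq_zero_iff hy).2 hx⟩

/-- there is a point of exact order `5` -/
theorem exists_order_five (h5 : (5 : K) ≠ 0) :
    ∃ x y, ∃ h : W.Nonsingular x y, 5 • Point.some x y h = 0 := by
  have h5' : ((5 : ℕ) : K) ≠ 0 := by exact_mod_cast h5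
  obtain ⟨x, hx⟩ := IsAlgClosed.exists_root (W.preΨ' 5) (by
    rw [degree_eq_natDegree (W.preΨ'_ne_zero h5'), natDegree_preΨ'_five W h5]; norm_num)
  obtain ⟨y, hy⟩ := exists_nonsingular_of_X W x
  exact ⟨x, y, hy, (five_nsmul_eq_zero_iff hy).2 hx⟩

theorem nontrivial_torsionBy_three (h3 : (3 : K) ≠ 0) :
    Nontrivial (Submodule.torsionBy ℤ W.Point ((3 : ℕ) : ℤ)) := by
  obtain ⟨x, y, h, hP⟩ := exists_order_three W h3
  refine ⟨⟨⟨Point.some x y h, (mem_torsionBy_natCast_iff W 3 _).2 hP⟩, 0, ?_⟩⟩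
  intro h0
  exact Point.some_ne_zero h (congrArg Subtype.val h0)

theorem nontrivial_torsionBy_five (h5 : (5 : K) ≠ 0) :
    Nontrivial (Submodule.torsionBy ℤ W.Point ((5 : ℕ) : ℤ)) := by
  obtain ⟨x, y, h, hP⟩ := exists_order_five W h5
  refine ⟨⟨⟨Point.some x y h, (mem_torsionBy_natCast_iff W 5 _).2 hP⟩, 0, ?_⟩⟩
  intro h0
  exact Point.some_ne_zero h (congrArg Subtype.val h0)

end torsionBy

end Fermat.Agent.S51
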