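/-
M3 / S51, task C2 (helper23): proper nonzero `𝔽_p`-subspaces of `E[p]` (`p = 3, 5`) in the exact
setting of the frozen definitions (`Submodule.torsionBy ℤ (W'⁄K).Point p` with the prelude's
`ZMod p`-module structure).
-/
import Fermat.Agent.S51.Torsion
import Fermat.Prelude.Def_FLTPrelim_GaloisRep

set_option autoImplicit false

namespace Fermat.Agent.S51

open WeierstrassCurve WeierstrassCurve.Affine Polynomial

variable {R : Type*} {K : Type*} [CommRing R] [Field K] [DecidableEq K] [Algebra R K]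
  (W' : Affine R)

/-- A proper nonzero subspace of `E[3]` consists of `0` and points with one fixed abscissa `x`,
a root of `Ψ₃`. -/
theorem subspace_three (h3 : (3 : K) ≠ 0)
    (N : Submodule (ZMod 3) (Submodule.torsionBy ℤ (W'⁄K).Point ((3 : ℕ) : ℤ)))
    (hbot : N ≠ ⊥) (htop : N ≠ ⊤) :
    ∃ (x y : K) (h : (W'⁄K).Nonsingular x y)
      (hP : Point.some x y h ∈ Submodule.torsionBy ℤ (W'⁄K).Point ((3 : ℕ) : ℤ)),
      (W'⁄K).Ψ₃.eval x = 0 ∧ (⟨Point.some x y h, hP⟩ : Submodule.torsionBy ℤ (W'⁄K).Point _) ∈ N ∧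
      ∀ Q ∈ N, (Q : (W'⁄K).Point) = 0 ∨
        ∃ y' h', (Q : (W'⁄K).Point) = Point.some x y' h' := by
  have := finite_torsionBy_three (W'⁄K) h3
  obtain ⟨v, hvN, hv0, hgen⟩ := exists_generator_of_ne_bot_of_ne_top (p := 3)
    (card_torsionBy_three_le (W'⁄K) h3) N hbot htop
  obtain ⟨P, hP⟩ := v
  rcases P with _ | ⟨x, y, h⟩
  · exact absurd rfl hv0
  have h3P : 3 • Point.some x y h = 0 := (mem_torsionBy_natCast_iff (W'⁄K) 3 _).1 hP
  refine ⟨x, y, h, hP, (three_nsmul_eq_zero_iff h).1 h3P, hvN, fun Q hQ => ?_⟩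
  obtain ⟨k, hk⟩ := hgen Q hQ
  have hk' : (Q : (W'⁄K).Point) = k • Point.some x y h := by
    rw [hk]; rfl
  rw [hk']
  exact nsmul_of_three_nsmul_eq_zero h h3P k

/-- A proper nonzero subspace of `E[5]` consists of `0` and points with abscissa `x` or
`Φ₂(x)/Ψ₂Sq(x)`, where `x` is a root of `Ψ₅`. -/
theorem subspace_five (h5 : (5 : K) ≠ 0)
    (N : Submodule (ZMod 5) (Submodule.torsionBy ℤ (W'⁄K).Point ((5 : ℕ) : ℤ)))
    (hbot : N ≠ ⊥) (htop : N ≠ ⊤) :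
    ∃ (x y : K) (h : (W'⁄K).Nonsingular x y)
      (hP : Point.some x y h ∈ Submodule.torsionBy ℤ (W'⁄K).Point ((5 : ℕ) : ℤ)),
      ((W'⁄K).preΨ' 5).eval x = 0 ∧
      (⟨Point.some x y h, hP⟩ : Submodule.torsionBy ℤ (W'⁄K).Point _) ∈ N ∧
      ∀ Q ∈ N, (Q : (W'⁄K).Point) = 0 ∨
        (∃ y' h', (Q : (W'⁄K).Point) = Point.some x y' h') ∨
        ∃ y' h', (Q : (W'⁄K).Point)
          = Point.some (((W'⁄K).Φ 2).eval x / (W'⁄K).Ψ₂Sq.eval x) y' h' := by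
  have := finite_torsionBy_five (W'⁄K) h5
  have : Fact (Nat.Prime 5) := ⟨Nat.prime_five⟩
  obtain ⟨v, hvN, hv0, hgen⟩ := exists_generator_of_ne_bot_of_ne_top (p := 5)
    (card_torsionBy_five_le (W'⁄K) h5) N hbot htop
  obtain ⟨P, hP⟩ := v
  rcases P with _ | ⟨x, y, h⟩
  · exact absurd rfl hv0
  have h5P : 5 • Point.some x y h = 0 := (mem_torsionBy_natCast_iff (W'⁄K) 5 _).1 hP
  refine ⟨x, y, h, hP, (five_nsmul_eq_zero_iff h).1 h5P, hvN, fun Q hQ => ?_⟩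
  obtain ⟨k, hk⟩ := hgen Q hQ
  have hk' : (Q : (W'⁄K).Point) = k • Point.some x y h := by
    rw [hk]; rfl
  rw [hk']
  exact nsmul_of_five_nsmul_eq_zero h h5P k

/-! ## The statements of task T1 in helper21's interface (same names, same statements). -/

section T1

variable [CharZero K] [IsAlgClosed K]

omit [DecidableEq K] [CharZero K] [IsAlgClosed K] in
lemma isElliptic_of_Δ_ne_zero (hΔ : (W'⁄K).Δ ≠ 0) : (W'⁄K).IsElliptic :=
  ⟨isUnit_iff_ne_zero.2 hΔ⟩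

theorem T1.nontrivial_three (hΔ : (W'⁄K).Δ ≠ 0) :
    Nontrivial (Submodule.torsionBy ℤ (W'⁄K).Point ((3 : ℕ) : ℤ)) := by
  have := isElliptic_of_Δ_ne_zero W' hΔ
  exact nontrivial_torsionBy_three (W'⁄K) (by norm_num)

theorem T1.nontrivial_five (hΔ : (W'⁄K).Δ ≠ 0) :
    Nontrivial (Submodule.torsionBy ℤ (W'⁄K).Point ((5 : ℕ) : ℤ)) := by
  have := isElliptic_of_Δ_ne_zero W' hΔ
  exact nontrivial_torsionBy_five (W'⁄K) (by norm_num)

omit [IsAlgClosed K] in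
/-- a proper nonzero submodule of E[3] is `{0, P, -P}`: one x-coordinate, a root of Ψ₃. -/
theorem T1.exists_line_three (_hΔ : (W'⁄K).Δ ≠ 0)
    (N : Submodule (ZMod 3) (Submodule.torsionBy ℤ (W'⁄K).Point ((3 : ℕ) : ℤ)))
    (hbot : N ≠ ⊥) (htop : N ≠ ⊤) :
    ∃ (x y : K) (h : (W'⁄K).Nonsingular x y)
      (hP : Point.some x y h ∈ Submodule.torsionBy ℤ (W'⁄K).Point ((3 : ℕ) : ℤ)),
      (⟨Point.some x y h, hP⟩ : Submodule.torsionBy ℤ (W'⁄K).Point ((3 : ℕ) : ℤ)) ∈ N ∧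
      (W'⁄K).Ψ₃.eval x = 0 ∧
      ∀ Q ∈ N, ∀ (x' y' : K) (h' : (W'⁄K).Nonsingular x' y'),
        (Q : (W'⁄K).Point) = Point.some x' y' h' → x' = x := by
  obtain ⟨x, y, h, hP, hx, hPN, hall⟩ := subspace_three W' (by norm_num) N hbot htop
  refine ⟨x, y, h, hP, hPN, hx, fun Q hQ x' y' h' e => ?_⟩
  rcases hall Q hQ with h0 | ⟨y'', h'', e'⟩
  · rw [e] at h0; exact absurd h0 (Point.some_ne_zero h')
  · rw [e] at e'
    exact (Point.some.inj e').1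

omit [IsAlgClosed K] in
/-- a proper nonzero submodule of E[5] is `{0, ±P, ±2P}`: two x-coordinates `x1 = x(P)`,
`x2 = x(2P)`, related by the duplication formula in both directions (since `2(2P) = -P`). -/
theorem T1.exists_line_five (_hΔ : (W'⁄K).Δ ≠ 0)
    (N : Submodule (ZMod 5) (Submodule.torsionBy ℤ (W'⁄K).Point ((5 : ℕ) : ℤ)))
    (hbot : N ≠ ⊥) (htop : N ≠ ⊤) :
    ∃ (x1 y1 x2 y2 : K) (h1 : (W'⁄K).Nonsingular x1 y1) (h2 : (W'⁄K).Nonsingular x2 y2)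
      (hP : Point.some x1 y1 h1 ∈ Submodule.torsionBy ℤ (W'⁄K).Point ((5 : ℕ) : ℤ))
      (hP2 : Point.some x2 y2 h2 ∈ Submodule.torsionBy ℤ (W'⁄K).Point ((5 : ℕ) : ℤ)),
      (⟨Point.some x1 y1 h1, hP⟩ : Submodule.torsionBy ℤ (W'⁄K).Point ((5 : ℕ) : ℤ)) ∈ N ∧
      (⟨Point.some x2 y2 h2, hP2⟩ : Submodule.torsionBy ℤ (W'⁄K).Point ((5 : ℕ) : ℤ)) ∈ N ∧
      x1 ≠ x2 ∧
      (W'⁄K).Ψ₂Sq.eval x1 * (x2 - x1) + (W'⁄K).Ψ₃.eval x1 = 0 ∧
      (W'⁄K).Ψ₂Sq.eval x2 * (x1 - x2) + (W'⁄K).Ψ₃.eval x2 = 0 ∧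
      ∀ Q ∈ N, ∀ (x' y' : K) (h' : (W'⁄K).Nonsingular x' y'),
        (Q : (W'⁄K).Point) = Point.some x' y' h' → x' = x1 ∨ x' = x2 := by
  obtain ⟨x, y, h, hP, hx, hPN, hall⟩ := subspace_five W' (by norm_num) N hbot htop
  have h5P : 5 • Point.some x y h = 0 := (mem_torsionBy_natCast_iff (W'⁄K) 5 _).1 hP
  have hne := Point.some_ne_zero h
  -- `2P ≠ 0`
  have hΨ2 : (W'⁄K).Ψ₂Sq.eval x ≠ 0 := by
    intro h0
    have h2P := (two_nsmul_eq_zero_iff h).2 h0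
    generalize Point.some x y h = P at *
    have : P = 5 • P - 2 • (2 • P) := by abel
    rw [h5P, h2P] at this
    exact hne (by simpa using this)
  obtain ⟨y₂, h₂, e₂⟩ := add_self_X h hΨ2
  set x₂ := ((W'⁄K).Φ 2).eval x / (W'⁄K).Ψ₂Sq.eval x with hx₂
  have hP2 : Point.some x₂ y₂ h₂ ∈ Submodule.torsionBy ℤ (W'⁄K).Point ((5 : ℕ) : ℤ) := by
    rw [← e₂]
    exact Submodule.smul_of_tower_mem _ 2 hP
  have hP2N : (⟨Point.some x₂ y₂ h₂, hP2⟩ :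
      Submodule.torsionBy ℤ (W'⁄K).Point ((5 : ℕ) : ℤ)) ∈ N := by
    have : (⟨Point.some x₂ y₂ h₂, hP2⟩ : Submodule.torsionBy ℤ (W'⁄K).Point ((5 : ℕ) : ℤ))
        = 2 • ⟨Point.some x y h, hP⟩ := by
      apply Subtype.ext
      show Point.some x₂ y₂ h₂ = 2 • Point.some x y h
      exact e₂.symm
    rw [this]
    exact N.smul_of_tower_mem 2 hPN
  -- `4P ≠ 0`, so `2(2P)` is affine with abscissa `Φ₂(x₂)/Ψ₂Sq(x₂)`; and `4P = -P`.
  have h4 : 2 • Point.some x₂ y₂ h₂ = - Point.some x y h := by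
    rw [← e₂]
    generalize Point.some x y h = P at *
    rw [eq_neg_iff_add_eq_zero, ← h5P]; abel
  have hΨ2' : (W'⁄K).Ψ₂Sq.eval x₂ ≠ 0 := by
    intro h0
    have h2P := (two_nsmul_eq_zero_iff h₂).2 h0
    rw [h4, neg_eq_zero] at h2P
    exact hne h2P
  obtain ⟨y₄, h₄, e₄⟩ := add_self_X h₂ hΨ2'
  have hx₄ : ((W'⁄K).Φ 2).eval x₂ / (W'⁄K).Ψ₂Sq.eval x₂ = x := by
    rw [h4, Point.neg_some] at e₄
    exact (Point.some.inj e₄).1.symm
  -- the two duplication relations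
  have hΨ3 : ∀ z : K, (W'⁄K).Ψ₃.eval z = z * (W'⁄K).Ψ₂Sq.eval z - ((W'⁄K).Φ 2).eval z := by
    intro z
    rw [eval_Ψ₃_eq, eval_Ψ₂Sq_eq, eval_Φ_two_eq, vΨ₃_eq]
  have hC1 : (W'⁄K).Ψ₂Sq.eval x * (x₂ - x) + (W'⁄K).Ψ₃.eval x = 0 := by
    rw [hΨ3, hx₂]; field_simp; ring
  have hC1p : (W'⁄K).Ψ₂Sq.eval x₂ * (x - x₂) + (W'⁄K).Ψ₃.eval x₂ = 0 := by
    rw [hΨ3]
    have : ((W'⁄K).Φ 2).eval x₂ = x * (W'⁄K).Ψ₂Sq.eval x₂ := by
      rw [← hx₄, div_mul_cancel₀ _ hΨ2']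
    rw [this]; ring
  -- `x ≠ x₂`
  have hxne : x ≠ x₂ := by
    intro hxx
    rw [← hxx, sub_self, mul_zero, zero_add] at hC1
    have h3P := (three_nsmul_eq_zero_iff h).2 hC1
    generalize Point.some x y h = P at *
    have : P = 2 • (3 • P) - 5 • P := by abel
    rw [h3P, h5P] at this
    exact hne (by simpa using this)
  refine ⟨x, y, x₂, y₂, h, h₂, hP, hP2, hPN, hP2N, hxne, hC1, hC1p, fun Q hQ x' y' h' e => ?_⟩
  rcases hall Q hQ with h0 | ⟨y'', h'', e'⟩ | ⟨y'', h'', e'⟩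
  · rw [e] at h0; exact absurd h0 (Point.some_ne_zero h')
  · rw [e] at e'
    exact Or.inl (Point.some.inj e').1
  · rw [e] at e'
    exact Or.inr (Point.some.inj e').1

end T1

end Fermat.Agent.S51
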