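/-
M3 / S51, task T2 (helper21): Galois descent of the x-coordinate data to ℚ.
-/
import Mathlib
import Fermat.Prelude.Def_FLTPrelim_GaloisRep
import Fermat.Agent.S51.TorsionSubspace

set_option autoImplicit false
open WeierstrassCurve WeierstrassCurve.Affine WeierstrassCurve.Affine.Point Polynomial

namespace Fermat.Agent.S51.Descent

local notation "Qbar" => AlgebraicClosure ℚ

/-- `Q̄/ℚ` is an algebraic closure for the default (`DivisionRing.toRatAlgebra`) algebra structure,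
which is the one used by the frozen statement. -/
theorem isAlgClosure_Qbar : IsAlgClosure ℚ Qbar := by
  have h : (DivisionRing.toRatAlgebra : Algebra ℚ Qbar) = AlgebraicClosure.instAlgebra ℚ :=
    Subsingleton.elim _ _
  rw [h]; infer_instance

theorem isGalois_Qbar : IsGalois ℚ Qbar :=
  haveI := isAlgClosure_Qbar
  inferInstance

/-- an element of `Q̄` fixed by all of `Gal(Q̄/ℚ)` is rational. -/
theorem exists_rat_of_fixed (x : Qbar) (hx : ∀ σ : Qbar ≃ₐ[ℚ] Qbar, σ x = x) :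
    ∃ r : ℚ, algebraMap ℚ Qbar r = x :=
  haveI := isGalois_Qbar
  (InfiniteGalois.mem_range_algebraMap_iff_fixed (k := ℚ) (K := Qbar) x).mpr hx

theorem baseChange_Δ_ne_zero (E : WeierstrassCurve ℚ) (hΔ : E.Δ ≠ 0) :
    (E⁄Qbar).Δ ≠ 0 := by
  rw [show (E⁄Qbar) = E.map (algebraMap ℚ Qbar) from rfl, map_Δ]
  exact fun h => hΔ ((map_eq_zero _).mp h)

/-- the coercion of `σ • ⟨P, _⟩` is `some (σ x) (σ y)`. -/
theorem coe_smul_some (E : WeierstrassCurve ℚ) (n : ℕ) (σ : Qbar ≃ₐ[ℚ] Qbar) {x y : Qbar}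
    (h : (E⁄Qbar).Nonsingular x y)
    (hP : Point.some x y h ∈ Submodule.torsionBy ℤ (E⁄Qbar).Point (n : ℤ)) :
    ∃ h' : (E⁄Qbar).Nonsingular (σ x) (σ y),
      ((σ • (⟨Point.some x y h, hP⟩ : Submodule.torsionBy ℤ (E⁄Qbar).Point (n : ℤ)) :
        Submodule.torsionBy ℤ (E⁄Qbar).Point (n : ℤ)) : (E⁄Qbar).Point) = Point.some (σ x) (σ y) h' :=
  ⟨_, rfl⟩

theorem rational_three (E : WeierstrassCurve ℚ) (hΔ : E.Δ ≠ 0)
    (h : ¬ Affine.Point.GaloisRepIsIrreducible (K := AlgebraicClosure ℚ) ℚ E 3) :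
    ∃ r : ℚ, 3 * r ^ 4 + E.b₂ * r ^ 3 + 3 * E.b₄ * r ^ 2 + 3 * E.b₆ * r + E.b₈ = 0 := by
  have hΔ' := baseChange_Δ_ne_zero E hΔ
  unfold Affine.Point.GaloisRepIsIrreducible at h
  rw [not_and_or] at h
  rcases h with h | h
  · exact absurd (T1.nontrivial_three (K := Qbar) E hΔ') h
  push Not at h
  obtain ⟨N, hN, hbot, htop⟩ := h
  obtain ⟨x, y, hxy, hP, hmem, hΨ, hall⟩ := T1.exists_line_three (K := Qbar) E hΔ' N hbot htop
  have hfix : ∀ σ : Qbar ≃ₐ[ℚ] Qbar, σ x = x := by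
    intro σ
    obtain ⟨h', heq⟩ := coe_smul_some E 3 σ hxy hP
    exact hall _ (hN σ _ hmem) _ _ h' heq
  obtain ⟨r, rfl⟩ := exists_rat_of_fixed x hfix
  refine ⟨r, ?_⟩
  rw [show (E⁄Qbar) = E.map (algebraMap ℚ Qbar) from rfl, map_Ψ₃, eval_map_algebraMap,
    aeval_algebraMap_apply, map_eq_zero] at hΨ
  simpa [Ψ₃] using hΨ

theorem rational_five (E : WeierstrassCurve ℚ) (hΔ : E.Δ ≠ 0)
    (h : ¬ Affine.Point.GaloisRepIsIrreducible (K := AlgebraicClosure ℚ) ℚ E 5) :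
    ∃ (sig pi : ℚ) (x1 x2 : AlgebraicClosure ℚ), x1 ≠ x2 ∧
      x1 + x2 = algebraMap ℚ _ sig ∧ x1 * x2 = algebraMap ℚ _ pi ∧
      (4 * x1 ^ 3 + algebraMap ℚ _ E.b₂ * x1 ^ 2 + 2 * algebraMap ℚ _ E.b₄ * x1
          + algebraMap ℚ _ E.b₆) * (x2 - x1)
        + (3 * x1 ^ 4 + algebraMap ℚ _ E.b₂ * x1 ^ 3 + 3 * algebraMap ℚ _ E.b₄ * x1 ^ 2
          + 3 * algebraMap ℚ _ E.b₆ * x1 + algebraMap ℚ _ E.b₈) = 0 ∧
      (4 * x2 ^ 3 + algebraMap ℚ _ E.b₂ * x2 ^ 2 + 2 * algebraMap ℚ _ E.b₄ * x2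
          + algebraMap ℚ _ E.b₆) * (x1 - x2)
        + (3 * x2 ^ 4 + algebraMap ℚ _ E.b₂ * x2 ^ 3 + 3 * algebraMap ℚ _ E.b₄ * x2 ^ 2
          + 3 * algebraMap ℚ _ E.b₆ * x2 + algebraMap ℚ _ E.b₈) = 0 := by
  have hΔ' := baseChange_Δ_ne_zero E hΔ
  unfold Affine.Point.GaloisRepIsIrreducible at h
  rw [not_and_or] at h
  rcases h with h | h
  · exact absurd (T1.nontrivial_five (K := Qbar) E hΔ') h
  push Not at h
  obtain ⟨N, hN, hbot, htop⟩ := h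
  obtain ⟨x1, y1, x2, y2, h1, h2, hP, hP2, hmem1, hmem2, hne, hC1, hC1p, hall⟩ :=
    T1.exists_line_five (K := Qbar) E hΔ' N hbot htop
  have hperm : ∀ σ : Qbar ≃ₐ[ℚ] Qbar, (σ x1 = x1 ∧ σ x2 = x2) ∨ (σ x1 = x2 ∧ σ x2 = x1) := by
    intro σ
    obtain ⟨h1', heq1⟩ := coe_smul_some E 5 σ h1 hP
    obtain ⟨h2', heq2⟩ := coe_smul_some E 5 σ h2 hP2
    have a1 := hall _ (hN σ _ hmem1) _ _ h1' heq1
    have a2 := hall _ (hN σ _ hmem2) _ _ h2' heq2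
    have hinj : σ x1 ≠ σ x2 := fun h => hne (σ.injective h)
    rcases a1 with a1 | a1 <;> rcases a2 with a2 | a2
    · exact absurd (a1.trans a2.symm) hinj
    · exact Or.inl ⟨a1, a2⟩
    · exact Or.inr ⟨a1, a2⟩
    · exact absurd (a1.trans a2.symm) hinj
  obtain ⟨sig, hsig⟩ := exists_rat_of_fixed (x1 + x2) (fun σ => by
    rcases hperm σ with ⟨a, b⟩ | ⟨a, b⟩
    · rw [map_add, a, b]
    · rw [map_add, a, b, add_comm])
  obtain ⟨pi, hpi⟩ := exists_rat_of_fixed (x1 * x2) (fun σ => by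
    rcases hperm σ with ⟨a, b⟩ | ⟨a, b⟩
    · rw [map_mul, a, b]
    · rw [map_mul, a, b, mul_comm])
  refine ⟨sig, pi, x1, x2, hne, hsig.symm, hpi.symm, ?_, ?_⟩
  · rw [show (E⁄Qbar) = E.map (algebraMap ℚ Qbar) from rfl] at hC1
    simpa [Ψ₂Sq, Ψ₃] using hC1
  · rw [show (E⁄Qbar) = E.map (algebraMap ℚ Qbar) from rfl] at hC1p
    simpa [Ψ₂Sq, Ψ₃] using hC1p

end Fermat.Agent.S51.Descent
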