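/-
M3 / S51, task T6 (helper21): the arithmetic endgame.
The four non-cuspidal rational points of X₀(15) have `t ∈ {-10, -40, -25/2, -25/8}`; the relation
`c₄³ t = Δ (t² + 10 t + 5)³` then forces `5 ∣ c₄` and `5 ∣ Δ`, contradicting semistability at `5`.
-/
import Mathlib

set_option autoImplicit false

namespace Fermat.Agent.S51.Endgame

theorem prime_five_int : Prime (5 : ℤ) := by
  rw [Int.prime_iff_natAbs_prime]; norm_num

/-- `a c₄³ = m b D` with `m ∈ {5, 25}` and `5 ∤ a b` forces `5 ∣ D` and `5 ∣ c₄`. -/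
theorem five_dvd_of_eq (a b c4 D m : ℤ) (hm : m = 5 ∨ m = 25) (h : a * c4 ^ 3 = m * b * D)
    (ha : ¬ (5 : ℤ) ∣ a) (hb : ¬ (5 : ℤ) ∣ b) : (5 : ℤ) ∣ D ∧ (5 : ℤ) ∣ c4 := by
  have p5 := prime_five_int
  have h5c : (5 : ℤ) ∣ a * c4 ^ 3 := by
    rw [h]
    rcases hm with rfl | rfl
    · exact ⟨b * D, by ring⟩
    · exact ⟨5 * b * D, by ring⟩
  have hc : (5 : ℤ) ∣ c4 := by
    rcases p5.dvd_or_dvd h5c with h1 | h1
    · exact absurd h1 ha
    · exact p5.dvd_of_dvd_pow h1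
  refine ⟨?_, hc⟩
  obtain ⟨k, rfl⟩ := hc
  have hbD : (5 : ℤ) ∣ b * D := by
    rcases hm with rfl | rfl
    · refine ⟨5 * a * k ^ 3, ?_⟩
      have : (5 : ℤ) * (b * D) = 5 * (5 * (5 * a * k ^ 3)) := by linear_combination -h
      linarith
    · refine ⟨a * k ^ 3, ?_⟩
      have : (25 : ℤ) * (b * D) = 25 * (5 * (a * k ^ 3)) := by linear_combination -h
      linarith
  rcases p5.dvd_or_dvd hbD with h1 | h1
  · exact absurd h1 hb
  · exact h1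

theorem no_semistable (c4 D : ℤ) (hss : ¬ ((5 : ℤ) ∣ D ∧ (5 : ℤ) ∣ c4)) (t : ℚ)
    (ht : t = -10 ∨ t = -40 ∨ t = -25 / 2 ∨ t = -25 / 8)
    (h : (c4 : ℚ) ^ 3 * t = D * (t ^ 2 + 10 * t + 5) ^ 3) : False := by
  apply hss
  rcases ht with rfl | rfl | rfl | rfl
  · -- t = -10 : -2 c₄³ = 25 D
    have hZ : (-2 : ℤ) * c4 ^ 3 = 25 * 1 * D := by
      have : ((-2 : ℤ) * c4 ^ 3 : ℚ) = ((25 * 1 * D : ℤ) : ℚ) := by
        push_cast; linear_combination (1 / 5 : ℚ) * h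
      exact_mod_cast this
    exact five_dvd_of_eq (-2) 1 c4 D 25 (Or.inr rfl) hZ (by norm_num) (by norm_num)
  · -- t = -40 : -8 c₄³ = 25 * 241³ D
    have hZ : (-8 : ℤ) * c4 ^ 3 = 25 * (241 ^ 3) * D := by
      have : ((-8 : ℤ) * c4 ^ 3 : ℚ) = ((25 * (241 ^ 3) * D : ℤ) : ℚ) := by
        push_cast; linear_combination (1 / 5 : ℚ) * h
      exact_mod_cast this
    exact five_dvd_of_eq (-8) (241 ^ 3) c4 D 25 (Or.inr rfl) hZ (by norm_num) (by norm_num)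
  · -- t = -25/2 : -32 c₄³ = 5 * 29³ D
    have hZ : (-32 : ℤ) * c4 ^ 3 = 5 * (29 ^ 3) * D := by
      have : ((-32 : ℤ) * c4 ^ 3 : ℚ) = ((5 * (29 ^ 3) * D : ℤ) : ℚ) := by
        push_cast; linear_combination (64 / 25 : ℚ) * h
      exact_mod_cast this
    exact five_dvd_of_eq (-32) (29 ^ 3) c4 D 5 (Or.inl rfl) hZ (by norm_num) (by norm_num)
  · -- t = -25/8 : 2¹⁵ c₄³ = 5 * 211³ D
    have hZ : (2 ^ 15 : ℤ) * c4 ^ 3 = 5 * (211 ^ 3) * D := by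
      have : ((2 ^ 15 : ℤ) * c4 ^ 3 : ℚ) = ((5 * (211 ^ 3) * D : ℤ) : ℚ) := by
        push_cast; linear_combination (-(2 ^ 18) / 25 : ℚ) * h
      exact_mod_cast this
    exact five_dvd_of_eq (2 ^ 15) (211 ^ 3) c4 D 5 (Or.inl rfl) hZ (by norm_num) (by norm_num)

end Fermat.Agent.S51.Endgame
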