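import Mathlib

/-
# Rational points of the elliptic curve `15a1` (= `X₀(15)`)

Main results (all over `ℚ`, elementary descent, no group law needed):

* `not_star` : `M⁴ - 322 M² e² + e⁴ = N²` has no solution in positive coprime integers.
* `rational_points_D` : `y² = x (x² - 322 x + 1)  →  x = 0`.
* `rational_points_C` : `y² = x (x - 1) (x - 81)  →  y = 0`            (Cremona `15a2`).
* `rational_points_15a1` : `y² = x (x + 9) (x - 16)` has exactly the seven affine points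
  `(0,0), (-9,0), (16,0), (-4,±20), (36,±180)`.
* `rational_points_15a1_minimal` : the same for `y² + x y + y = x³ + x² - 10 x - 10`.

Method: `15a1 → 15a2 → D` by two explicit `2`-isogenies; on `D` a point is `x = M²/e²` with
`M⁴ - 322 M² e² + e⁴ = N²`; then `(M² + e² ± N)/2 = r², r'²` with `r r' = 9 M e`, the four number
lemma gives `M = αβ, e = γδ, r = 9αγ, r' = βδ` and `β² - γ² = ν α²`, `β² - 81 γ² = ν δ²` with
`ν ∣ 80`; parity kills `ν ∈ {2,4,8,10,20,40}`; the remaining classes produce a strictly smaller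
solution (infinite descent on `M * e`).
-/

set_option autoImplicit false

namespace Fermat.Agent.S51.RatPoints15


/-- The quartic `M⁴ - 322 M² e² + e⁴ = N²`, as a predicate on coprime positive solutions. -/
def Star (M e N : ℤ) : Prop :=
  0 < M ∧ 0 < e ∧ IsCoprime M e ∧ M ^ 4 - 322 * M ^ 2 * e ^ 2 + e ^ 4 = N ^ 2

/-- From a solution of `B² - G² = a²`, `B² - 81 G² = d²` we get a solution of the quartic
with `M * e ≤ G`. -/
theorem star_of_sigma_one {B G a d : ℤ} (hB : 0 < B) (hG : 0 < G) (ha : 0 < a)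
    (h1 : B ^ 2 - G ^ 2 = a ^ 2) (h2 : B ^ 2 - 81 * G ^ 2 = d ^ 2) :
    ∃ M e N : ℤ, Star M e N ∧ M * e ≤ G := by
  have hS : 0 < a + B := by positivity
  have hg0 : 0 < Int.gcd (a + B) G := Int.gcd_pos_of_ne_zero_right _ hG.ne'
  obtain ⟨M, e, hcop, hM, he⟩ := Int.exists_gcd_one hg0
  set g : ℤ := (Int.gcd (a + B) G : ℤ) with hg
  have hgpos : 0 < g := by rw [hg]; exact_mod_cast hg0
  have hMpos : 0 < M := by
    by_contra h
    rw [not_lt] at h
    have : M * g ≤ 0 := mul_nonpos_of_nonpos_of_nonneg h hgpos.le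
    linarith
  have hepos : 0 < e := by
    by_contra h
    rw [not_lt] at h
    have : e * g ≤ 0 := mul_nonpos_of_nonpos_of_nonneg h hgpos.le
    linarith
  have hcop' : IsCoprime M e := Int.isCoprime_iff_gcd_eq_one.mpr hcop
  -- the unreduced solution
  have hstar : (a + B) ^ 4 - 322 * (a + B) ^ 2 * G ^ 2 + G ^ 4 = (2 * d * (a + B)) ^ 2 := by
    have hG2 : G ^ 2 = (B - a) * (a + B) := by linear_combination -h1
    have hd2 : d ^ 2 = B ^ 2 - 81 * ((B - a) * (a + B)) := by rw [← hG2]; linarith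
    have hG4 : G ^ 4 = ((B - a) * (a + B)) ^ 2 := by rw [← hG2]; ring
    rw [hG4, hG2]
    have : (2 * d * (a + B)) ^ 2 = 4 * d ^ 2 * (a + B) ^ 2 := by ring
    rw [this, hd2]
    ring
  -- divide by g^4
  have hdvd : (g ^ 2) ^ 2 ∣ (2 * d * (a + B)) ^ 2 := by
    rw [← hstar, hM, he]
    exact ⟨M ^ 4 - 322 * M ^ 2 * e ^ 2 + e ^ 4, by ring⟩
  have hdvd' : g ^ 2 ∣ 2 * d * (a + B) := (Int.pow_dvd_pow_iff (by norm_num)).mp hdvd
  obtain ⟨N, hN⟩ := hdvd'
  refine ⟨M, e, N, ⟨hMpos, hepos, hcop', ?_⟩, ?_⟩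
  · have hg4 : g ^ 4 ≠ 0 := pow_ne_zero _ hgpos.ne'
    apply mul_left_cancel₀ hg4
    have := hstar
    rw [hN, hM, he] at this
    linear_combination this
  · -- bound: M ∣ g
    have hG2 : (a + B) * (B - a) = G ^ 2 := by linear_combination h1
    rw [hM, he] at hG2
    have h3 : M * (B - a) = g * e ^ 2 := by
      apply mul_left_cancel₀ hgpos.ne'
      linear_combination hG2
    have hMg : M ∣ g := by
      have : M ∣ g * e ^ 2 := ⟨B - a, h3.symm⟩
      exact (hcop'.pow_right (n := 2)).dvd_of_dvd_mul_right this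
    have hMle : M ≤ g := Int.le_of_dvd hgpos hMg
    calc M * e ≤ g * e := by nlinarith
      _ = G := by rw [he]; ring



set_option synthInstance.maxHeartbeats 200000 in
set_option synthInstance.maxSize 1000 in
theorem zmod8_bad : ∀ a b c d : ZMod 8, b ^ 2 - c ^ 2 = 2 * a ^ 2 → b ^ 2 - c ^ 2 = 2 * d ^ 2 →
    ¬(4 * b = 0 ∧ 4 * c = 0) → ¬(4 * a = 0 ∧ 4 * d = 0) → False := by decide

set_option synthInstance.maxHeartbeats 200000 in
set_option synthInstance.maxSize 1000 in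
theorem zmod8_bad' : ∀ a b c d : ZMod 8, b ^ 2 - c ^ 2 = 4 * a ^ 2 → b ^ 2 - c ^ 2 = 4 * d ^ 2 →
    ¬(4 * b = 0 ∧ 4 * c = 0) → ¬(4 * a = 0 ∧ 4 * d = 0) → False := by decide

theorem zmod4_bad : ∀ a b c d : ZMod 4, b ^ 2 - c ^ 2 = 0 → 2 * c ^ 2 = a ^ 2 - d ^ 2 →
    ¬(2 * b = 0 ∧ 2 * c = 0) → False := by decide

theorem four_mul_zmod8_eq_zero {x : ℤ} (h : 4 * (x : ZMod 8) = 0) : (2 : ℤ) ∣ x := by
  have h' : ((4 * x : ℤ) : ZMod 8) = 0 := by push_cast; exact h
  rw [ZMod.intCast_zmod_eq_zero_iff_dvd] at h'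
  omega

theorem two_mul_zmod4_eq_zero {x : ℤ} (h : 2 * (x : ZMod 4) = 0) : (2 : ℤ) ∣ x := by
  have h' : ((2 * x : ℤ) : ZMod 4) = 0 := by push_cast; exact h
  rw [ZMod.intCast_zmod_eq_zero_iff_dvd] at h'
  omega

theorem not_both_even {x y : ℤ} (h : IsCoprime x y) : ¬((2 : ℤ) ∣ x ∧ (2 : ℤ) ∣ y) := by
  rintro ⟨hx, hy⟩
  have := h.isUnit_of_dvd' hx hy
  rw [Int.isUnit_iff] at this
  omega

/-- parity obstruction for `ν ≡ 2 mod 8` -/
theorem bad_two_mod_eight {a b c d ν : ℤ} (hν : ν % 8 = 2) (h1 : b ^ 2 - c ^ 2 = a ^ 2 * ν)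
    (h2 : b ^ 2 - 81 * c ^ 2 = ν * d ^ 2) (hbc : IsCoprime b c) (had : IsCoprime a d) : False := by
  have hν' : (ν : ZMod 8) = 2 := by
    have : ((ν - 2 : ℤ) : ZMod 8) = 0 := by
      rw [ZMod.intCast_zmod_eq_zero_iff_dvd]; omega
    push_cast at this
    linear_combination this
  have e1 := congrArg (Int.cast : ℤ → ZMod 8) h1
  have e2 := congrArg (Int.cast : ℤ → ZMod 8) h2
  push_cast at e1 e2
  rw [hν'] at e1 e2
  have h81 : (81 : ZMod 8) = 1 := by decide
  rw [h81, one_mul] at e2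
  refine zmod8_bad (a : ZMod 8) b c d (by rw [e1]; ring) e2 ?_ ?_
  · rintro ⟨hb, hc⟩
    exact not_both_even hbc ⟨four_mul_zmod8_eq_zero hb, four_mul_zmod8_eq_zero hc⟩
  · rintro ⟨ha, hd⟩
    exact not_both_even had ⟨four_mul_zmod8_eq_zero ha, four_mul_zmod8_eq_zero hd⟩

/-- parity obstruction for `ν ≡ 4 mod 8` -/
theorem bad_four_mod_eight {a b c d ν : ℤ} (hν : ν % 8 = 4) (h1 : b ^ 2 - c ^ 2 = a ^ 2 * ν)
    (h2 : b ^ 2 - 81 * c ^ 2 = ν * d ^ 2) (hbc : IsCoprime b c) (had : IsCoprime a d) : False := by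
  have hν' : (ν : ZMod 8) = 4 := by
    have : ((ν - 4 : ℤ) : ZMod 8) = 0 := by
      rw [ZMod.intCast_zmod_eq_zero_iff_dvd]; omega
    push_cast at this
    linear_combination this
  have e1 := congrArg (Int.cast : ℤ → ZMod 8) h1
  have e2 := congrArg (Int.cast : ℤ → ZMod 8) h2
  push_cast at e1 e2
  rw [hν'] at e1 e2
  have h81 : (81 : ZMod 8) = 1 := by decide
  rw [h81, one_mul] at e2
  refine zmod8_bad' (a : ZMod 8) b c d (by rw [e1]; ring) e2 ?_ ?_
  · rintro ⟨hb, hc⟩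
    exact not_both_even hbc ⟨four_mul_zmod8_eq_zero hb, four_mul_zmod8_eq_zero hc⟩
  · rintro ⟨ha, hd⟩
    exact not_both_even had ⟨four_mul_zmod8_eq_zero ha, four_mul_zmod8_eq_zero hd⟩

/-- parity obstruction for `ν = 8 ν'`, `ν'` odd dividing `5`: here `10 c² = ν' (a² - d²)`. -/
theorem bad_eight {a b c d : ℤ} (h1 : 4 ∣ b ^ 2 - c ^ 2)
    (h3 : ∃ k : ℤ, 2 * c ^ 2 = a ^ 2 - d ^ 2 + 4 * k) (hbc : IsCoprime b c) : False := by
  obtain ⟨k, hk⟩ := h3
  have e1 : ((b : ZMod 4)) ^ 2 - (c : ZMod 4) ^ 2 = 0 := by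
    have : ((b ^ 2 - c ^ 2 : ℤ) : ZMod 4) = 0 := by
      rw [ZMod.intCast_zmod_eq_zero_iff_dvd]; exact_mod_cast h1
    push_cast at this
    exact this
  have e2 := congrArg (Int.cast : ℤ → ZMod 4) hk
  push_cast at e2
  have h4 : (4 : ZMod 4) = 0 := by decide
  rw [h4, zero_mul, add_zero] at e2
  refine zmod4_bad (a : ZMod 4) b c d e1 e2 ?_
  rintro ⟨hb, hc⟩
  exact not_both_even hbc ⟨two_mul_zmod4_eq_zero hb, two_mul_zmod4_eq_zero hc⟩


/-- The key descent step. -/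
theorem key {α β γ δ : ℤ} (hα : 0 < α) (hβ : 0 < β) (hγ : 0 < γ) (hδ : 0 < δ)
    (hβγ : IsCoprime β γ) (hαδ : IsCoprime α δ)
    (hE : α ^ 2 * β ^ 2 + γ ^ 2 * δ ^ 2 = 81 * α ^ 2 * γ ^ 2 + β ^ 2 * δ ^ 2) (hlt : γ < β) :
    ∃ M e N : ℤ, Star M e N ∧ M * e ≤ γ * δ := by
  have h1 : α ^ 2 * (β ^ 2 - 81 * γ ^ 2) = δ ^ 2 * (β ^ 2 - γ ^ 2) := by linear_combination hE
  have hdvd : α ^ 2 ∣ β ^ 2 - γ ^ 2 := by
    have : α ^ 2 ∣ δ ^ 2 * (β ^ 2 - γ ^ 2) := ⟨_, h1.symm⟩
    exact (hαδ.pow (m := 2) (n := 2)).dvd_of_dvd_mul_left this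
  obtain ⟨ν, hν⟩ := hdvd
  have hα2 : α ^ 2 ≠ 0 := pow_ne_zero _ hα.ne'
  have hν2 : β ^ 2 - 81 * γ ^ 2 = ν * δ ^ 2 := by
    apply mul_left_cancel₀ hα2
    rw [h1, hν]; ring
  have hνpos : 0 < ν := by
    have h : 0 < β ^ 2 - γ ^ 2 := by nlinarith
    rw [hν] at h
    exact (mul_pos_iff_of_pos_left (by positivity)).mp h
  have hν80 : ν ∣ 80 := by
    obtain ⟨u, v, huv⟩ := hβγ.pow (m := 2) (n := 2)
    refine ⟨u * (81 * α ^ 2 - δ ^ 2) + v * (α ^ 2 - δ ^ 2), ?_⟩
    linear_combination (-80) * huv + (81 * u + v) * hν - (u + v) * hν2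
  have hle : ν ≤ 80 := Int.le_of_dvd (by norm_num) hν80
  have hγδ : γ ≤ γ * δ := by nlinarith
  have hδγ : δ ≤ γ * δ := by nlinarith
  have hcases : ν = 1 ∨ ν = 2 ∨ ν = 4 ∨ ν = 5 ∨ ν = 8 ∨ ν = 10 ∨ ν = 16 ∨ ν = 20 ∨ ν = 40 ∨
      ν = 80 := by
    interval_cases ν <;> omega
  rcases hcases with rfl | rfl | rfl | rfl | rfl | rfl | rfl | rfl | rfl | rfl
  · -- ν = 1
    obtain ⟨M, e, N, hS, hb⟩ := star_of_sigma_one (B := β) (G := γ) (a := α) (d := δ) hβ hγ hα
      (by linear_combination hν) (by linear_combination hν2)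
    exact ⟨M, e, N, hS, hb.trans hγδ⟩
  · exact (bad_two_mod_eight (by norm_num) hν hν2 hβγ hαδ).elim
  · exact (bad_four_mod_eight (by norm_num) hν hν2 hβγ hαδ).elim
  · -- ν = 5
    obtain ⟨M, e, N, hS, hb⟩ := star_of_sigma_one (B := 9 * α) (G := δ) (a := 4 * β)
      (d := 36 * γ) (by positivity) hδ (by positivity)
      (by linarith) (by linarith)
    exact ⟨M, e, N, hS, hb.trans hδγ⟩
  · -- ν = 8
    refine (bad_eight (a := α) (b := β) (c := γ) (d := δ) ⟨2 * α ^ 2, by linear_combination hν⟩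
      ⟨-2 * γ ^ 2, by linarith⟩ hβγ).elim
  · exact (bad_two_mod_eight (by norm_num) hν hν2 hβγ hαδ).elim
  · -- ν = 16
    obtain ⟨M, e, N, hS, hb⟩ := star_of_sigma_one (B := β) (G := γ) (a := 4 * α) (d := 4 * δ)
      hβ hγ (by positivity) (by linear_combination hν) (by linear_combination hν2)
    exact ⟨M, e, N, hS, hb.trans hγδ⟩
  · exact (bad_four_mod_eight (by norm_num) hν hν2 hβγ hαδ).elim
  · -- ν = 40
    refine (bad_eight (a := α) (b := β) (c := γ) (d := δ) ⟨10 * α ^ 2, by linear_combination hν⟩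
      ⟨0, by linarith⟩ hβγ).elim
  · -- ν = 80
    obtain ⟨M, e, N, hS, hb⟩ := star_of_sigma_one (B := 9 * α) (G := δ) (a := β)
      (d := 9 * γ) (by positivity) hδ hβ (by linarith) (by linarith)
    exact ⟨M, e, N, hS, hb.trans hδγ⟩

theorem three_dvd_of_sq_add_sq {a b : ℤ} (h : (3 : ℤ) ∣ a ^ 2 + b ^ 2) :
    (3 : ℤ) ∣ a ∧ (3 : ℤ) ∣ b := by
  have h' : ((a ^ 2 + b ^ 2 : ℤ) : ZMod 3) = 0 := by
    rw [ZMod.intCast_zmod_eq_zero_iff_dvd]; exact_mod_cast h
  push_cast at h'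
  have key : ∀ x y : ZMod 3, x ^ 2 + y ^ 2 = 0 → x = 0 ∧ y = 0 := by decide
  obtain ⟨ha, hb⟩ := key _ _ h'
  rw [ZMod.intCast_zmod_eq_zero_iff_dvd] at ha hb
  exact ⟨by exact_mod_cast ha, by exact_mod_cast hb⟩

/-- Second half of the descent step. -/
theorem descent_of_r {M e r r' : ℤ} (hM : 0 < M) (he : 0 < e)
    (hMe : IsCoprime M e) (hrr : IsCoprime r r') (hsum : r ^ 2 + r' ^ 2 = M ^ 2 + e ^ 2)
    (hprod : r * r' = 9 * M * e) (h3 : (3 : ℤ) ∣ r) :
    ∃ M' e' N' : ℤ, Star M' e' N' ∧ M' * e' < M * e := by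
  -- 9 ∣ r
  have h3r' : IsCoprime (3 : ℤ) r' := by
    obtain ⟨k, hk⟩ := h3
    rw [hk] at hrr
    exact hrr.of_mul_left_left
  have h9r' : IsCoprime (9 : ℤ) r' := by
    have := h3r'.pow_left (m := 2)
    norm_num at this
    exact this
  have h9 : (9 : ℤ) ∣ r := by
    have : (9 : ℤ) ∣ r * r' := ⟨M * e, by rw [hprod]; ring⟩
    exact h9r'.dvd_of_dvd_mul_right this
  obtain ⟨r₀, hr₀⟩ := h9
  have hprod' : r₀ * r' = M * e := by
    have : (9 : ℤ) * (r₀ * r') = 9 * (M * e) := by rw [← mul_assoc, ← hr₀, hprod]; ring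
    exact mul_left_cancel₀ (by norm_num) this
  -- four number lemma
  have hMdvd : M ∣ r₀ * r' := ⟨e, hprod'⟩
  obtain ⟨α, β, ⟨γ, hγ⟩, ⟨δ, hδ⟩, hMαβ⟩ := exists_dvd_and_dvd_of_dvd_mul hMdvd
  have hMne : M ≠ 0 := hM.ne'
  have heγδ : e = γ * δ := by
    apply mul_left_cancel₀ hMne
    rw [← hprod', hγ, hδ, hMαβ]; ring
  have hαne : α ≠ 0 := by rintro rfl; simp at hMαβ; exact hMne hMαβ
  have hβne : β ≠ 0 := by rintro rfl; simp at hMαβ; exact hMne hMαβ
  have hγne : γ ≠ 0 := by rintro rfl; simp at heγδ; exact he.ne' heγδ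
  have hδne : δ ≠ 0 := by rintro rfl; simp at heγδ; exact he.ne' heγδ
  have hαpos : 0 < |α| := abs_pos.mpr hαne
  have hβpos : 0 < |β| := abs_pos.mpr hβne
  have hγpos : 0 < |γ| := abs_pos.mpr hγne
  have hδpos : 0 < |δ| := abs_pos.mpr hδne
  have hMabs : M = |α| * |β| := by rw [← abs_mul, ← hMαβ, abs_of_pos hM]
  have heabs : e = |γ| * |δ| := by rw [← abs_mul, ← heγδ, abs_of_pos he]
  -- coprimality
  have hβγ : IsCoprime |β| |γ| := by
    have h1 : |β| ∣ M := (abs_dvd _ _).mpr ⟨α, by rw [hMαβ]; ring⟩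
    have h2 : |γ| ∣ e := (abs_dvd _ _).mpr ⟨δ, heγδ⟩
    exact (hMe.of_isCoprime_of_dvd_left h1).of_isCoprime_of_dvd_right h2
  have hαδ : IsCoprime |α| |δ| := by
    have h1 : |α| ∣ M := (abs_dvd _ _).mpr ⟨β, hMαβ⟩
    have h2 : |δ| ∣ e := (abs_dvd _ _).mpr ⟨γ, by rw [heγδ]; ring⟩
    exact (hMe.of_isCoprime_of_dvd_left h1).of_isCoprime_of_dvd_right h2
  -- the equation E1
  have hE : |α| ^ 2 * |β| ^ 2 + |γ| ^ 2 * |δ| ^ 2 = 81 * |α| ^ 2 * |γ| ^ 2 + |β| ^ 2 * |δ| ^ 2 := by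
    simp only [sq_abs]
    rw [hr₀, hγ, hδ, hMαβ, heγδ] at hsum
    linear_combination -hsum
  rcases lt_or_ge |γ| |β| with hlt | hge
  · obtain ⟨M', e', N', hS, hb⟩ := key hαpos hβpos hγpos hδpos hβγ hαδ hE hlt
    refine ⟨M', e', N', hS, ?_⟩
    have h2 : 2 ≤ M := by rw [hMabs]; nlinarith
    have : M' * e' ≤ e := by rw [heabs]; exact hb
    nlinarith
  · have hlt : |α| < |δ| := by
      by_contra h
      rw [not_lt] at h
      have hb2 : |β| ^ 2 ≤ |γ| ^ 2 := pow_le_pow_left₀ hβpos.le hge 2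
      have hd2 : |δ| ^ 2 ≤ |α| ^ 2 := pow_le_pow_left₀ hδpos.le h 2
      have h1 : |α| ^ 2 * |β| ^ 2 ≤ |α| ^ 2 * |γ| ^ 2 :=
        mul_le_mul_of_nonneg_left hb2 (by positivity)
      have h2 : |γ| ^ 2 * |δ| ^ 2 ≤ |γ| ^ 2 * |α| ^ 2 :=
        mul_le_mul_of_nonneg_left hd2 (by positivity)
      have h3 : 0 < |α| ^ 2 * |γ| ^ 2 := by positivity
      have h4 : 0 < |β| ^ 2 * |δ| ^ 2 := by positivity
      nlinarith
    obtain ⟨M', e', N', hS, hb⟩ := key hγpos hδpos hαpos hβpos hαδ.symm hβγ.symm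
      (by linear_combination hE) hlt
    refine ⟨M', e', N', hS, ?_⟩
    have h2 : 2 ≤ e := by rw [heabs]; nlinarith
    have : M' * e' ≤ M := by rw [hMabs]; exact hb
    nlinarith

/-- One full descent step for the quartic. -/
theorem star_descent {M e N : ℤ} (h : Star M e N) :
    ∃ M' e' N' : ℤ, Star M' e' N' ∧ M' * e' < M * e := by
  obtain ⟨hM, he, hMe, hEq⟩ := h
  -- u = M² + e² + N, ū = M² + e² - N
  have huu : (M ^ 2 + e ^ 2 + N) * (M ^ 2 + e ^ 2 - N) = 324 * M ^ 2 * e ^ 2 := by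
    linear_combination hEq
  have hevprod : Even ((M ^ 2 + e ^ 2 + N) * (M ^ 2 + e ^ 2 - N)) := by
    rw [huu]; exact ⟨162 * M ^ 2 * e ^ 2, by ring⟩
  have hevsum : Even ((M ^ 2 + e ^ 2 + N) + (M ^ 2 + e ^ 2 - N)) := ⟨M ^ 2 + e ^ 2, by ring⟩
  have hev : Even (M ^ 2 + e ^ 2 + N) ∧ Even (M ^ 2 + e ^ 2 - N) := by
    rw [Int.even_add] at hevsum
    rw [Int.even_mul] at hevprod
    tauto
  obtain ⟨⟨v, hv⟩, ⟨w, hw⟩⟩ := hev
  have hvw_sum : v + w = M ^ 2 + e ^ 2 := by linarith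
  have hvw_prod : v * w = (9 * M * e) ^ 2 := by
    have : (v + v) * (w + w) = 324 * M ^ 2 * e ^ 2 := by rw [← hv, ← hw, huu]
    linarith
  -- coprimality of v and w
  have hcop_sum : IsCoprime (v + w) (v * w) := by
    rw [hvw_sum, hvw_prod]
    have h1 : IsCoprime (M ^ 2 + e ^ 2) M := by
      have : IsCoprime (e ^ 2 + M * M) M := (hMe.symm.pow_left (m := 2)).add_mul_left_left M
      convert this using 1; ring
    have h2 : IsCoprime (M ^ 2 + e ^ 2) e := by
      have : IsCoprime (M ^ 2 + e * e) e := (hMe.pow_left (m := 2)).add_mul_left_left e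
      convert this using 1; ring
    have h3 : IsCoprime (M ^ 2 + e ^ 2) 3 := by
      rw [isCoprime_comm, Prime.coprime_iff_not_dvd Int.prime_three]
      intro hdvd
      obtain ⟨h3M, h3e⟩ := three_dvd_of_sq_add_sq hdvd
      have := hMe.isUnit_of_dvd' h3M h3e
      rw [Int.isUnit_iff] at this
      omega
    have h9 : IsCoprime (M ^ 2 + e ^ 2) 9 := by
      have := h3.pow_right (n := 2)
      norm_num at this
      exact this
    exact ((h9.mul_right h1).mul_right h2).pow_right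
  have hcop : IsCoprime v w := by
    obtain ⟨x, y, hxy⟩ := hcop_sum
    exact ⟨x, x + y * v, by linear_combination hxy⟩
  -- positivity
  have hprodpos : 0 < v * w := by rw [hvw_prod]; positivity
  have hsumpos : 0 < v + w := by rw [hvw_sum]; positivity
  have hvpos : 0 < v := by
    rcases (mul_pos_iff.mp hprodpos) with h | h
    · exact h.1
    · linarith [h.1, h.2]
  have hwpos : 0 < w := by
    rcases (mul_pos_iff.mp hprodpos) with h | h
    · exact h.2
    · linarith [h.1, h.2]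
  -- squares
  obtain ⟨r, hr⟩ := Int.sq_of_isCoprime hcop hvw_prod
  obtain ⟨r', hr'⟩ := Int.sq_of_isCoprime hcop.symm (by rw [mul_comm]; exact hvw_prod)
  have hvr : v = |r| ^ 2 := by
    rcases hr with hr | hr
    · rw [sq_abs]; exact hr
    · have := sq_nonneg r; linarith
  have hwr : w = |r'| ^ 2 := by
    rcases hr' with hr' | hr'
    · rw [sq_abs]; exact hr'
    · have := sq_nonneg r'; linarith
  have hrpos : 0 < |r| := by
    apply abs_pos.mpr; rintro rfl; simp at hvr; linarith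
  have hr'pos : 0 < |r'| := by
    apply abs_pos.mpr; rintro rfl; simp at hwr; linarith
  have hrr : IsCoprime |r| |r'| := by
    rw [hvr, hwr] at hcop
    exact (IsCoprime.pow_iff (by norm_num) (by norm_num)).mp hcop
  have hsum : |r| ^ 2 + |r'| ^ 2 = M ^ 2 + e ^ 2 := by rw [← hvr, ← hwr, hvw_sum]
  have hprod : |r| * |r'| = 9 * M * e := by
    have h1 : (|r| * |r'|) ^ 2 = (9 * M * e) ^ 2 := by rw [mul_pow, ← hvr, ← hwr, hvw_prod]
    have h2 : 0 ≤ |r| * |r'| := by positivity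
    have h3 : 0 ≤ 9 * M * e := by positivity
    exact (pow_left_inj₀ h2 h3 (by norm_num)).mp h1
  have h3dvd : (3 : ℤ) ∣ |r| * |r'| := ⟨3 * M * e, by rw [hprod]; ring⟩
  rcases (Int.prime_three.dvd_or_dvd h3dvd) with h3 | h3
  · exact descent_of_r hM he hMe hrr hsum hprod h3
  · exact descent_of_r hM he hMe hrr.symm (by rw [add_comm]; exact hsum)
      (by rw [mul_comm]; exact hprod) h3

/-- The quartic `M⁴ - 322 M² e² + e⁴ = N²` has no solution in positive coprime integers. -/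
theorem no_star : ∀ (n : ℕ) (M e N : ℤ), Star M e N → (M * e).toNat = n → False := by
  intro n
  induction n using Nat.strong_induction_on with
  | _ n ih =>
    intro M e N hS hn
    obtain ⟨M', e', N', hS', hlt⟩ := star_descent hS
    have hpos' : 0 < M' * e' := mul_pos hS'.1 hS'.2.1
    refine ih (M' * e').toNat ?_ M' e' N' hS' rfl
    rw [← hn]
    omega

theorem not_star (M e N : ℤ) : ¬ Star M e N := fun h => no_star _ M e N h rfl

/-- A rational number whose square is an integer is an integer. -/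
theorem exists_int_of_sq_eq_int {k : ℚ} {c : ℤ} (h : k ^ 2 = (c : ℚ)) : ∃ K : ℤ, k = (K : ℚ) := by
  have hden : (k ^ 2).den = 1 := by rw [h]; exact Rat.den_intCast c
  rw [Rat.den_pow] at hden
  have : k.den = 1 := by
    rcases Nat.eq_zero_or_pos k.den with h0 | h0
    · exact absurd h0 k.den_ne_zero
    · exact (pow_eq_one_iff_of_nonneg (Nat.zero_le _) (by norm_num)).mp hden
  exact ⟨k.num, by rw [← Rat.num_div_den k] ; simp [this]⟩

/-- **The curve `D : y² = x (x² - 322 x + 1)`** has no rational point with `x ≠ 0`. -/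
theorem rational_points_D {x y : ℚ} (h : y ^ 2 = x * (x ^ 2 - 322 * x + 1)) : x = 0 := by
  by_contra hx
  -- write x = m / n
  set m : ℤ := x.num with hm
  set n : ℤ := (x.den : ℤ) with hn
  have hnpos : 0 < n := by rw [hn]; exact_mod_cast x.den_pos
  have hmne : m ≠ 0 := by rw [hm]; exact Rat.num_ne_zero.mpr hx
  have hmn : IsCoprime m n := by
    rw [Int.isCoprime_iff_gcd_eq_one, hm, hn]
    exact_mod_cast x.reduced
  have hxmn : x = (m : ℚ) / (n : ℚ) := by
    rw [hm, hn]; exact_mod_cast (Rat.num_div_den x).symm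
  have hnQ : (n : ℚ) ≠ 0 := by exact_mod_cast hnpos.ne'
  -- k = y n², k² = m n (m² - 322 m n + n²)
  have hk : (y * (n : ℚ) ^ 2) ^ 2 = ((m * n * (m ^ 2 - 322 * m * n + n ^ 2) : ℤ) : ℚ) := by
    rw [mul_pow, h, hxmn]
    push_cast
    field_simp
  obtain ⟨K, hK⟩ := exists_int_of_sq_eq_int hk
  have hKeq : K ^ 2 = m * n * (m ^ 2 - 322 * m * n + n ^ 2) := by
    rw [hK] at hk
    exact_mod_cast hk
  set Q : ℤ := m ^ 2 - 322 * m * n + n ^ 2 with hQ
  -- coprimality
  have hmQ : IsCoprime m Q := by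
    have h1 : IsCoprime m (n ^ 2) := hmn.pow_right
    have : IsCoprime m (n ^ 2 + m * (m - 322 * n)) := h1.add_mul_left_right (m - 322 * n)
    convert this using 1; rw [hQ]; ring
  have hnQ' : IsCoprime n Q := by
    have h1 : IsCoprime n (m ^ 2) := hmn.symm.pow_right
    have : IsCoprime n (m ^ 2 + n * (n - 322 * m)) := h1.add_mul_left_right (n - 322 * m)
    convert this using 1; rw [hQ]; ring
  have hm_nQ : IsCoprime m (n * Q) := hmn.mul_right hmQ
  -- m > 0
  have hmpos : 0 < m := by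
    by_contra hneg
    rw [not_lt] at hneg
    have hmneg : m < 0 := lt_of_le_of_ne hneg hmne
    have hQpos : 0 < Q := by rw [hQ]; nlinarith
    have : m * n * Q < 0 := by
      have : m * n < 0 := mul_neg_of_neg_of_pos hmneg hnpos
      exact mul_neg_of_neg_of_pos this hQpos
    have := sq_nonneg K
    linarith
  -- m is a square
  obtain ⟨a, ha⟩ := Int.sq_of_isCoprime hm_nQ (by rw [← mul_assoc]; exact hKeq.symm)
  have ha' : m = a ^ 2 := by
    rcases ha with ha | ha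
    · exact ha
    · have := sq_nonneg a; linarith
  -- n Q is a square, and nonnegative
  have hnQnonneg : 0 ≤ n * Q := by
    have h1 : 0 ≤ m * (n * Q) := by rw [← mul_assoc, ← hKeq]; exact sq_nonneg K
    exact nonneg_of_mul_nonneg_right h1 hmpos
  have hQnonneg : 0 ≤ Q := nonneg_of_mul_nonneg_right hnQnonneg hnpos
  obtain ⟨b, hb⟩ := Int.sq_of_isCoprime hm_nQ.symm
    (by rw [mul_comm, ← mul_assoc]; exact hKeq.symm)
  have hb' : n * Q = b ^ 2 := by
    rcases hb with hb | hb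
    · exact hb
    · have := sq_nonneg b
      have h0 : b ^ 2 = 0 := by linarith
      rw [hb, h0]; simp
  obtain ⟨c, hc⟩ := Int.sq_of_isCoprime hnQ' hb'
  have hc' : n = c ^ 2 := by
    rcases hc with hc | hc
    · exact hc
    · have := sq_nonneg c; linarith
  obtain ⟨d, hd⟩ := Int.sq_of_isCoprime hnQ'.symm (by rw [mul_comm]; exact hb')
  have hd' : Q = d ^ 2 := by
    rcases hd with hd | hd
    · exact hd
    · have := sq_nonneg d
      have h0 : d ^ 2 = 0 := by linarith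
      rw [hd, h0]; simp
  -- build the Star solution
  have hane : a ≠ 0 := by rintro rfl; simp at ha'; exact hmne ha'
  have hcne : c ≠ 0 := by rintro rfl; simp at hc'; exact hnpos.ne' hc'
  refine not_star |a| |c| d ⟨abs_pos.mpr hane, abs_pos.mpr hcne, ?_, ?_⟩
  · have : IsCoprime (a ^ 2) (c ^ 2) := by rw [← ha', ← hc']; exact hmn
    have hac : IsCoprime a c := (IsCoprime.pow_iff (by norm_num) (by norm_num)).mp this
    rcases abs_choice a with h1 | h1 <;> rcases abs_choice c with h2 | h2 <;> rw [h1, h2]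
    · exact hac
    · exact hac.neg_right
    · exact hac.neg_left
    · exact hac.neg_neg
  · have h4 : ∀ t : ℤ, |t| ^ 4 = (t ^ 2) ^ 2 := fun t => by
      rw [← sq_abs t]; ring
    rw [h4, h4, sq_abs, sq_abs, ← ha', ← hc', ← hd', hQ]

/-- **The curve `C : y² = x (x - 1) (x - 81)`** (Cremona `15a2`): all rational points are
`2`-torsion. -/
theorem rational_points_C {x y : ℚ} (h : y ^ 2 = x * (x - 1) * (x - 81)) : y = 0 := by
  by_contra hy
  have hx81 : x - 81 ≠ 0 := by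
    intro h0
    rw [h0, mul_zero] at h
    exact hy (pow_eq_zero_iff (by norm_num) |>.mp h)
  have hx0 : x ≠ 0 := by
    rintro rfl
    rw [zero_mul, zero_mul] at h
    exact hy (pow_eq_zero_iff (by norm_num) |>.mp h)
  have hx1 : x - 1 ≠ 0 := by
    intro h0
    rw [h0, mul_zero, zero_mul] at h
    exact hy (pow_eq_zero_iff (by norm_num) |>.mp h)
  have hD : (y * (6480 - (x - 81) ^ 2) / (x - 81) ^ 2) ^ 2 =
      (x * (x - 1) / (x - 81)) * ((x * (x - 1) / (x - 81)) ^ 2 - 322 * (x * (x - 1) / (x - 81))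
        + 1) := by
    rw [div_pow, mul_pow, h]
    field_simp
    ring
  have := rational_points_D hD
  rw [div_eq_zero_iff] at this
  rcases this with h0 | h0
  · rcases mul_eq_zero.mp h0 with h1 | h1
    · exact hx0 h1
    · exact hx1 h1
  · exact hx81 h0

/-- **Rational points of `15a1`** in the model `y² = x (x + 9) (x - 16)`. -/
theorem rational_points_15a1 {x y : ℚ} (h : y ^ 2 = x * (x + 9) * (x - 16)) :
    (x = 0 ∧ y = 0) ∨ (x = -9 ∧ y = 0) ∨ (x = 16 ∧ y = 0) ∨ (x = -4 ∧ (y = 20 ∨ y = -20)) ∨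
      (x = 36 ∧ (y = 180 ∨ y = -180)) := by
  by_cases hy : y = 0
  · rw [hy] at h
    have h' : x * (x + 9) * (x - 16) = 0 := by rw [← h]; ring
    rcases mul_eq_zero.mp h' with h1 | h1
    · rcases mul_eq_zero.mp h1 with h2 | h2
      · exact Or.inl ⟨h2, hy⟩
      · exact Or.inr (Or.inl ⟨by linarith, hy⟩)
    · exact Or.inr (Or.inr (Or.inl ⟨by linarith, hy⟩))
  · have hx16 : x - 16 ≠ 0 := by
      intro h0
      rw [h0, mul_zero] at h
      exact hy (pow_eq_zero_iff (by norm_num) |>.mp h)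
    have hC : (y * ((x + 4) * (x - 36)) / (x - 16) ^ 2) ^ 2 =
        (x * (x + 9) / (x - 16)) * (x * (x + 9) / (x - 16) - 1) *
          (x * (x + 9) / (x - 16) - 81) := by
      rw [div_pow, mul_pow, h]
      field_simp
      ring
    have h0 := rational_points_C hC
    rw [div_eq_zero_iff] at h0
    rcases h0 with h0 | h0
    · rcases mul_eq_zero.mp h0 with h1 | h1
      · exact absurd h1 hy
      · rcases mul_eq_zero.mp h1 with h2 | h2
        · have hx : x = -4 := by linarith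
          refine Or.inr (Or.inr (Or.inr (Or.inl ⟨hx, ?_⟩)))
          rw [hx] at h
          have : (y - 20) * (y + 20) = 0 := by linear_combination h
          rcases mul_eq_zero.mp this with h3 | h3
          · left; linarith
          · right; linarith
        · have hx : x = 36 := by linarith
          refine Or.inr (Or.inr (Or.inr (Or.inr ⟨hx, ?_⟩)))
          rw [hx] at h
          have : (y - 180) * (y + 180) = 0 := by linear_combination h
          rcases mul_eq_zero.mp this with h3 | h3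
          · left; linarith
          · right; linarith
    · exact absurd (pow_eq_zero_iff (by norm_num) |>.mp h0) hx16

/-- **Rational points of `15a1`** in the minimal model `y² + x y + y = x³ + x² - 10 x - 10`. -/
theorem rational_points_15a1_minimal {x y : ℚ}
    (h : y ^ 2 + x * y + y = x ^ 3 + x ^ 2 - 10 * x - 10) :
    (x = -1 ∧ y = 0) ∨ (x = -13 / 4 ∧ y = 9 / 8) ∨ (x = 3 ∧ y = -2) ∨ (x = -2 ∧ y = 3) ∨
      (x = -2 ∧ y = -2) ∨ (x = 8 ∧ y = 18) ∨ (x = 8 ∧ y = -27) := by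
  have h' : (8 * y + 4 * x + 4) ^ 2 = (4 * x + 4) * (4 * x + 4 + 9) * (4 * x + 4 - 16) := by
    linear_combination 64 * h
  rcases rational_points_15a1 h' with ⟨h1, h2⟩ | ⟨h1, h2⟩ | ⟨h1, h2⟩ | ⟨h1, h2 | h2⟩ | ⟨h1, h2 | h2⟩
  · exact Or.inl ⟨by linarith, by linarith⟩
  · exact Or.inr (Or.inl ⟨by linarith, by linarith⟩)
  · exact Or.inr (Or.inr (Or.inl ⟨by linarith, by linarith⟩))
  · exact Or.inr (Or.inr (Or.inr (Or.inl ⟨by linarith, by linarith⟩)))
  · exact Or.inr (Or.inr (Or.inr (Or.inr (Or.inl ⟨by linarith, by linarith⟩))))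
  · exact Or.inr (Or.inr (Or.inr (Or.inr (Or.inr (Or.inl ⟨by linarith, by linarith⟩)))))
  · exact Or.inr (Or.inr (Or.inr (Or.inr (Or.inr (Or.inr ⟨by linarith, by linarith⟩)))))

end Fermat.Agent.S51.RatPoints15

namespace Fermat.Agent.S51

/-- **T5** (interface form): rational points of `15a1 : y² = x (x + 9) (x - 16)`. -/
theorem T5.rational_points_15a1 (x y : ℚ) (h : y ^ 2 = x * (x + 9) * (x - 16)) :
    x = 0 ∨ x = -9 ∨ x = 16 ∨ x = -4 ∨ x = 36 := by
  rcases RatPoints15.rational_points_15a1 h with h1 | h1 | h1 | h1 | h1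
  · exact Or.inl h1.1
  · exact Or.inr (Or.inl h1.1)
  · exact Or.inr (Or.inr (Or.inl h1.1))
  · exact Or.inr (Or.inr (Or.inr (Or.inl h1.1)))
  · exact Or.inr (Or.inr (Or.inr (Or.inr h1.1)))

end Fermat.Agent.S51
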