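/-
M3 / S51, task T4 (helper21; birational map found by helper25): rational points of the plane model
`t (s+27)(s+3)³ = s (t²+10t+5)³` of `X₀(15)`.

With `q(t) = (t²+4t-1)(t²+10t+5)²`, the functions `x = Xn / (t² q)`, `y = Yn / (t³ q)` satisfy the
Weierstrass equation of 15a1 : `y² + xy + y = x³ + x² - 10x - 10` modulo the plane model, together
with two relations recovering `t` and `s` from `(x, y)`.  All denominators are univariate in `t`
and have no rational zero besides `t = 0`.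
-/
import Mathlib

set_option autoImplicit false
set_option maxRecDepth 8000

namespace Fermat.Agent.S51.X015

/-- `q(t) = (t² + 4t - 1)(t² + 10t + 5)²`. -/
def q (t : ℚ) : ℚ := (t ^ 2 + 4 * t - 1) * (t ^ 2 + 10 * t + 5) ^ 2

/-- numerator of `x`. -/
def Xn (s t : ℚ) : ℚ :=
      10 * s ^ 3 * t ^ 3 + 475 * s ^ 3 * t ^ 2 + 3125 * s ^ 3 * t + 180 * s ^ 2 * t ^ 4 +
      4005 * s ^ 2 * t ^ 3 + 35325 * s ^ 2 * t ^ 2 + 112500 * s ^ 2 * t + 45 * s * t ^ 6
      + 2025 * s * t ^ 5 + 32850 * s * t ^ 4 + 240210 * s * t ^ 3 + 784350 * s * t ^ 2 +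
      843750 * s * t - 2 * t ^ 8 - 43 * t ^ 7 - 293 * t ^ 6 - 665 * t ^ 5 - 325 * t ^ 4 -
      20 * t ^ 3 + 500 * t ^ 2 - 40625 * t - 390625

/-- numerator of `y`. -/
def Yn (s t : ℚ) : ℚ :=
      -25 * s ^ 3 * t ^ 4 - 4350 * s ^ 3 * t ^ 3 - 81250 * s ^ 3 * t ^ 2 - 390625 * s ^ 3
      * t - 1125 * s ^ 2 * t ^ 5 - 47700 * s ^ 2 * t ^ 4 - 739800 * s ^ 2 * t ^ 3 -
      5203125 * s ^ 2 * t ^ 2 - 14062500 * s ^ 2 * t - 225 * s * t ^ 7 - 18000 * s * t ^
      6 - 469125 * s * t ^ 5 - 5730525 * s * t ^ 4 - 35455725 * s * t ^ 3 - 103950000 * s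
      * t ^ 2 - 105468750 * s * t - 2 * t ^ 9 - 48 * t ^ 8 - 353 * t ^ 7 - 790 * t ^ 6 -
      255 * t ^ 5 + 175 * t ^ 4 - 2625 * t ^ 3 + 196875 * t ^ 2 + 7812500 * t + 48828125

theorem not_sq_five (r : ℚ) : r ^ 2 ≠ 5 := by
  intro h
  have h5 : IsSquare ((5 : ℕ) : ℚ) := ⟨r, by push_cast; rw [← h]; ring⟩
  rw [Rat.isSquare_natCast_iff] at h5
  obtain ⟨k, hk⟩ := h5
  have hk3 : k < 3 := by nlinarith
  interval_cases k <;> omega

theorem not_sq_twenty (r : ℚ) : r ^ 2 ≠ 20 := by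
  intro h
  have h5 : IsSquare ((20 : ℕ) : ℚ) := ⟨r, by push_cast; rw [← h]; ring⟩
  rw [Rat.isSquare_natCast_iff] at h5
  obtain ⟨k, hk⟩ := h5
  have hk3 : k < 5 := by nlinarith
  interval_cases k <;> omega

theorem q_ne_zero (t : ℚ) : q t ≠ 0 := by
  unfold q
  refine mul_ne_zero ?_ (pow_ne_zero _ ?_)
  · intro h
    exact not_sq_five (t + 2) (by linear_combination h)
  · intro h
    exact not_sq_twenty (t + 5) (by linear_combination h)

/-- the cleared Weierstrass equation is a multiple of the plane model. -/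
theorem weierstrass_cleared (s t : ℚ)
    (h : t * ((s + 27) * (s + 3) ^ 3) = s * (t ^ 2 + 10 * t + 5) ^ 3) :
    Yn s t ^ 2 * q t + Xn s t * Yn s t * t * q t + Yn s t * t ^ 3 * q t ^ 2 - Xn s t ^ 3
      - Xn s t ^ 2 * t ^ 2 * q t + 10 * Xn s t * t ^ 4 * q t ^ 2 + 10 * t ^ 6 * q t ^ 3 = 0 := by
  unfold Xn Yn q
  linear_combination
    (-1000 * s ^ 5 * t ^ 8 - 142500 * s ^ 5 * t ^ 7 - 7706250 * s ^ 5 * t ^ 6 -
      196234375 * s ^ 5 * t ^ 5 - 2408203125 * s ^ 5 * t ^ 4 - 13916015625 * s ^ 5 * t ^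
      3 - 30517578125 * s ^ 5 * t ^ 2 - 54000 * s ^ 4 * t ^ 9 - 6295500 * s ^ 4 * t ^ 8 -
      275197500 * s ^ 4 * t ^ 7 - 5828034375 * s ^ 4 * t ^ 6 - 67618828125 * s ^ 4 * t ^
      5 - 442494140625 * s ^ 4 * t ^ 4 - 1535888671875 * s ^ 4 * t ^ 3 - 2197265625000 *
      s ^ 4 * t ^ 2 - 13500 * s ^ 3 * t ^ 11 - 2862000 * s ^ 3 * t ^ 10 - 193944375 * s ^
      3 * t ^ 9 - 6153546375 * s ^ 3 * t ^ 8 - 109083172500 * s ^ 3 * t ^ 7 -
      1165232587500 * s ^ 3 * t ^ 6 - 7649646328125 * s ^ 3 * t ^ 5 - 30024791015625 * s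
      ^ 3 * t ^ 4 - 63993164062500 * s ^ 3 * t ^ 3 - 56030273437500 * s ^ 3 * t ^ 2 - 125
      * s ^ 2 * t ^ 13 - 429375 * s ^ 2 * t ^ 12 - 46913625 * s ^ 2 * t ^ 11 - 2167346125
      * s ^ 2 * t ^ 10 - 55710728625 * s ^ 2 * t ^ 9 - 889302469125 * s ^ 2 * t ^ 8 -
      9255795773125 * s ^ 2 * t ^ 7 - 63590953143750 * s ^ 2 * t ^ 6 - 282871317421875 *
      s ^ 2 * t ^ 5 - 767154640625000 * s ^ 2 * t ^ 4 - 1106441894531250 * s ^ 2 * t ^ 3
      - 591705322265625 * s ^ 2 * t ^ 2 + 3814697265625 * s ^ 2 * t - 56250 * s * t ^ 14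
      - 7754625 * s * t ^ 13 - 467843625 * s * t ^ 12 - 15784646625 * s * t ^ 11 -
      332668753875 * s * t ^ 10 - 4645049450625 * s * t ^ 9 - 44228820045375 * s * t ^ 8
      - 289271916967500 * s * t ^ 7 - 1283473023693750 * s * t ^ 6 - 3727561207359375 * s
      * t ^ 5 - 6598660341796875 * s * t ^ 4 - 6175814941406250 * s * t ^ 3 -
      2124206542968750 * s * t ^ 2 + 137329101562500 * s * t - 1125 * t ^ 16 - 111375 * t
      ^ 15 - 4087125 * t ^ 14 - 78373125 * t ^ 13 - 887452875 * t ^ 12 - 6204134250 * t ^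
      11 - 26760438000 * t ^ 10 - 68265740250 * t ^ 9 - 89201358000 * t ^ 8 +
      138338471250 * t ^ 7 + 4185652218750 * t ^ 6 + 49227062343750 * t ^ 5 +
      326401400390625 * t ^ 4 + 1181368652343750 * t ^ 3 + 2022033691406250 * t ^ 2 +
      1029968261718750 * t) * h

/-- the cleared `t`-relation `t (7x² + 5x - 2 + (x + 10) y) + 125 (x + 1)² = 0`. -/
theorem t_rel_cleared (s t : ℚ)
    (h : t * ((s + 27) * (s + 3) ^ 3) = s * (t ^ 2 + 10 * t + 5) ^ 3) :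
    t * (7 * Xn s t ^ 2 * t + 5 * Xn s t * t ^ 3 * q t - 2 * t ^ 5 * q t ^ 2 + Xn s t * Yn s t
        + 10 * Yn s t * t ^ 2 * q t)
      + 125 * (Xn s t ^ 2 * t + 2 * Xn s t * t ^ 3 * q t + t ^ 5 * q t ^ 2) = 0 := by
  unfold Xn Yn q
  linear_combination
    (450 * s ^ 2 * t ^ 7 + 23625 * s ^ 2 * t ^ 6 + 247500 * s ^ 2 * t ^ 5 + 703125 * s ^
      2 * t ^ 4 + 9450 * s * t ^ 8 + 297000 * s * t ^ 7 + 3489750 * s * t ^ 6 + 16807500
      * s * t ^ 5 + 25312500 * s * t ^ 4 + 2925 * t ^ 10 + 186300 * t ^ 9 + 3920400 * t ^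
      8 + 37791450 * t ^ 7 + 176478750 * t ^ 6 + 355320000 * t ^ 5 + 190546875 * t ^ 4) * h

/-- the cleared `s`-relation
`s (12x³ + 99x² - 162x - 249 + (x² + 47x - 35) y) + 729 (x³ + 6x² + 10x + 4 - (x + 2) y) = 0`. -/
theorem s_rel_cleared (s t : ℚ)
    (h : t * ((s + 27) * (s + 3) ^ 3) = s * (t ^ 2 + 10 * t + 5) ^ 3) :
    s * (12 * Xn s t ^ 3 * t + 99 * Xn s t ^ 2 * t ^ 3 * q t - 162 * Xn s t * t ^ 5 * q t ^ 2
        - 249 * t ^ 7 * q t ^ 3 + Xn s t ^ 2 * Yn s t + 47 * Xn s t * Yn s t * t ^ 2 * q t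
        - 35 * Yn s t * t ^ 4 * q t ^ 2)
      + 729 * (Xn s t ^ 3 * t + 6 * Xn s t ^ 2 * t ^ 3 * q t + 10 * Xn s t * t ^ 5 * q t ^ 2
        + 4 * t ^ 7 * q t ^ 3 - Xn s t * Yn s t * t ^ 2 * q t - 2 * Yn s t * t ^ 4 * q t ^ 2) = 0 := by
  unfold Xn Yn q
  linear_combination
    (9500 * s ^ 6 * t ^ 9 + 1037500 * s ^ 6 * t ^ 8 + 35821875 * s ^ 6 * t ^ 7 +
      216312500 * s ^ 6 * t ^ 6 - 11380859375 * s ^ 6 * t ^ 5 - 229248046875 * s ^ 6 * t
      ^ 4 - 1586914062500 * s ^ 6 * t ^ 3 - 3814697265625 * s ^ 6 * t ^ 2 + 445500 * s ^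
      5 * t ^ 10 + 38970000 * s ^ 5 * t ^ 9 + 1053500625 * s ^ 5 * t ^ 8 + 5115150000 * s
      ^ 5 * t ^ 7 - 213996375000 * s ^ 5 * t ^ 6 - 4367074218750 * s ^ 5 * t ^ 5 -
      37329345703125 * s ^ 5 * t ^ 4 - 158752441406250 * s ^ 5 * t ^ 3 - 274658203125000
      * s ^ 5 * t ^ 2 + 117000 * s ^ 4 * t ^ 12 + 19550250 * s ^ 4 * t ^ 11 + 953242875 *
      s ^ 4 * t ^ 10 + 17504861625 * s ^ 4 * t ^ 9 + 52947090000 * s ^ 4 * t ^ 8 -
      3025099884375 * s ^ 4 * t ^ 7 - 55918881281250 * s ^ 4 * t ^ 6 - 478757390625000 *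
      s ^ 4 * t ^ 5 - 2309433837890625 * s ^ 4 * t ^ 4 - 6117187500000000 * s ^ 4 * t ^ 3
      - 7003784179687500 * s ^ 4 * t ^ 2 + 1250 * s ^ 3 * t ^ 14 + 2600875 * s ^ 3 * t ^
      13 + 251208375 * s ^ 3 * t ^ 12 + 8458033375 * s ^ 3 * t ^ 11 + 121242646625 * s ^
      3 * t ^ 10 + 175601092500 * s ^ 3 * t ^ 9 - 20778214495625 * s ^ 3 * t ^ 8 -
      360323227412500 * s ^ 3 * t ^ 7 - 3186899682234375 * s ^ 3 * t ^ 6 -
      17102119650390625 * s ^ 3 * t ^ 5 - 55796353027343750 * s ^ 3 * t ^ 4 -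
      100485809326171875 * s ^ 3 * t ^ 3 - 73806762695312500 * s ^ 3 * t ^ 2 +
      953674316406250 * s ^ 3 * t + 334125 * s ^ 2 * t ^ 15 + 42597000 * s ^ 2 * t ^ 14 +
      2048164875 * s ^ 2 * t ^ 13 + 47107045125 * s ^ 2 * t ^ 12 + 474987259125 * s ^ 2 *
      t ^ 11 - 1603361853000 * s ^ 2 * t ^ 10 - 111032933544000 * s ^ 2 * t ^ 9 -
      1567485791735625 * s ^ 2 * t ^ 8 - 12576914130206250 * s ^ 2 * t ^ 7 -
      64740247192265625 * s ^ 2 * t ^ 6 - 217374624984375000 * s ^ 2 * t ^ 5 -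
      458665569580078125 * s ^ 2 * t ^ 4 - 544311859130859375 * s ^ 2 * t ^ 3 -
      259895324707031250 * s ^ 2 * t ^ 2 + 34332275390625000 * s ^ 2 * t - 5625 * s * t ^
      17 - 1301625 * s * t ^ 16 - 68739750 * s * t ^ 15 - 2257579125 * s * t ^ 14 -
      61094021625 * s * t ^ 13 - 1301681359125 * s * t ^ 12 - 19767919884750 * s * t ^ 11
      - 205647572136375 * s * t ^ 10 - 1448006011261875 * s * t ^ 9 - 6798601889668125 *
      s * t ^ 8 - 20576605178250000 * s * t ^ 7 - 37326304265625000 * s * t ^ 6 -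
      32618890775390625 * s * t ^ 5 + 15073591552734375 * s * t ^ 4 + 127976989746093750
      * s * t ^ 3 + 294982910156250000 * s * t ^ 2 + 257492065429687500 * s * t - 625 * t
      ^ 19 - 23750 * t ^ 18 - 360000 * t ^ 17 - 3600750 * t ^ 16 - 87829125 * t ^ 15 -
      2559358125 * t ^ 14 - 43005064500 * t ^ 13 - 419976135000 * t ^ 12 - 2454224249250
      * t ^ 11 - 8443640036500 * t ^ 10 - 15484775102375 * t ^ 9 + 1307292727500 * t ^ 8
      + 219903018187500 * t ^ 7 + 1680767379000000 * t ^ 6 + 6541547097656250 * t ^ 5 +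
      11643958007812500 * t ^ 4 + 5965484619140625 * t ^ 3 - 1853942871093750 * t ^ 2 -
      19073486328125000 * t - 59604644775390625) * h

/-- **Rational points of `X₀(15)`** (plane model): the only rational points with `s t ≠ 0` are the
four non-cuspidal ones, with `t ∈ (-10, -40, -12.5, -3.125)`.  The hypothesis `hT5` is the list of rational
points of 15a1 (task T5, proved in `RatPoints15.lean`). -/
theorem X0_15_points
    (hT5 : ∀ x y : ℚ, y ^ 2 = x * (x + 9) * (x - 16) → x = 0 ∨ x = -9 ∨ x = 16 ∨ x = -4 ∨ x = 36)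
    (s t : ℚ) (ht : t ≠ 0)
    (h : t * ((s + 27) * (s + 3) ^ 3) = s * (t ^ 2 + 10 * t + 5) ^ 3) :
    t = -10 ∨ t = -40 ∨ t = -25 / 2 ∨ t = -25 / 8 := by
  have hq := q_ne_zero t
  obtain ⟨x, hx⟩ : ∃ x : ℚ, x = Xn s t / (t ^ 2 * q t) := ⟨_, rfl⟩
  obtain ⟨y, hy⟩ : ∃ y : ℚ, y = Yn s t / (t ^ 3 * q t) := ⟨_, rfl⟩
  have hXn : Xn s t = x * (t ^ 2 * q t) := by rw [hx]; field_simp
  have hYn : Yn s t = y * (t ^ 3 * q t) := by rw [hy]; field_simp
  have hW0 := weierstrass_cleared s t h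
  have hT0 := t_rel_cleared s t h
  have hS0 := s_rel_cleared s t h
  rw [hXn, hYn] at hW0 hT0 hS0
  generalize q t = Q at hq hW0 hT0 hS0
  clear hXn hYn hx hy h
  -- Weierstrass equation of 15a1
  have hW : y ^ 2 + x * y + y - (x ^ 3 + x ^ 2 - 10 * x - 10) = 0 := by
    have h1 : t ^ 6 * Q ^ 3 * (y ^ 2 + x * y + y - (x ^ 3 + x ^ 2 - 10 * x - 10)) = 0 := by
      linear_combination hW0
    exact (mul_eq_zero.mp h1).resolve_left (mul_ne_zero (pow_ne_zero _ ht) (pow_ne_zero _ hq))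
  have hT : t * (7 * x ^ 2 + 5 * x - 2 + (x + 10) * y) + 125 * (x + 1) ^ 2 = 0 := by
    have h1 : t ^ 5 * Q ^ 2 * (t * (7 * x ^ 2 + 5 * x - 2 + (x + 10) * y) + 125 * (x + 1) ^ 2) = 0 := by
      linear_combination hT0
    exact (mul_eq_zero.mp h1).resolve_left (mul_ne_zero (pow_ne_zero _ ht) (pow_ne_zero _ hq))
  have hS : s * (12 * x ^ 3 + 99 * x ^ 2 - 162 * x - 249 + (x ^ 2 + 47 * x - 35) * y)
      + 729 * (x ^ 3 + 6 * x ^ 2 + 10 * x + 4 - (x + 2) * y) = 0 := by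
    have h1 : t ^ 7 * Q ^ 3 * (s * (12 * x ^ 3 + 99 * x ^ 2 - 162 * x - 249
        + (x ^ 2 + 47 * x - 35) * y) + 729 * (x ^ 3 + 6 * x ^ 2 + 10 * x + 4 - (x + 2) * y)) = 0 := by
      linear_combination hS0
    exact (mul_eq_zero.mp h1).resolve_left (mul_ne_zero (pow_ne_zero _ ht) (pow_ne_zero _ hq))
  clear hW0 hT0 hS0
  -- the point `(4x+4, 8y+4x+4)` lies on `Y² = X (X + 9) (X - 16)`
  have hE : (8 * y + 4 * x + 4) ^ 2 = (4 * x + 4) * (4 * x + 4 + 9) * (4 * x + 4 - 16) := by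
    linear_combination 64 * hW
  rcases hT5 _ _ hE with h0 | h0 | h0 | h0 | h0
  · -- x = -1 : y = 0, killed by the s-relation
    have hx : x = -1 := by linarith
    subst hx
    have hy0 : y ^ 2 = 0 := by linear_combination hW
    have hy : y = 0 := pow_eq_zero_iff (two_ne_zero) |>.mp hy0
    subst hy
    norm_num at hS
  · -- x = -13/4 : y = 9/8, t = -10
    have hx : x = -13 / 4 := by linarith
    subst hx
    have hy0 : (y - 9 / 8) ^ 2 = 0 := by linear_combination hW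
    have hy : y = 9 / 8 := by
      have := pow_eq_zero_iff (two_ne_zero) |>.mp hy0
      linarith
    subst hy
    left; linarith
  · -- x = 3 : y = -2, t = -40
    have hx : x = 3 := by linarith
    subst hx
    have hy0 : (y + 2) ^ 2 = 0 := by linear_combination hW
    have hy : y = -2 := by
      have := pow_eq_zero_iff (two_ne_zero) |>.mp hy0
      linarith
    subst hy
    right; left; linarith
  · -- x = -2 : y = 3 (t = -25/8) or y = -2 (impossible)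
    have hx : x = -2 := by linarith
    subst hx
    have hy0 : (y - 3) * (y + 2) = 0 := by linear_combination hW
    rcases mul_eq_zero.mp hy0 with hy | hy
    · have hy' : y = 3 := by linarith
      subst hy'
      right; right; right; linarith
    · have hy' : y = -2 := by linarith
      subst hy'
      norm_num at hT
  · -- x = 8 : y = 18 (t = -25/2) or y = -27 (impossible)
    have hx : x = 8 := by linarith
    subst hx
    have hy0 : (y - 18) * (y + 27) = 0 := by linear_combination hW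
    rcases mul_eq_zero.mp hy0 with hy | hy
    · have hy' : y = 18 := by linarith
      subst hy'
      right; right; left; linarith
    · have hy' : y = -27 := by linarith
      subst hy'
      norm_num at hT

end Fermat.Agent.S51.X015
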