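/-
M3 / S51, task T3 (helper25): moduli algebra.
Pure field algebra: a rational root of Ψ₃ gives a rational point on X₀(3) (parameter `s`),
a Galois-stable pair {x(P), x(2P)} for P of order 5 gives a rational point on X₀(5) (parameter `t`).
-/
import Mathlib

set_option autoImplicit false

namespace Fermat.Agent.S51.Moduli

/-- Short Weierstrass form `y² = x³ + A x + B`: a root `X` of `ψ₃ = 3X⁴+6AX²+12BX-A²`
gives `s` with `j s = (s+27)(s+3)³`, where `j = 6912 A³/(4A³+27B²)`. -/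
theorem short_three (A B X : ℚ) (hd : 4 * A ^ 3 + 27 * B ^ 2 ≠ 0)
    (hψ : 3 * X ^ 4 + 6 * A * X ^ 2 + 12 * B * X - A ^ 2 = 0) :
    ∃ s : ℚ, 6912 * A ^ 3 * s = (4 * A ^ 3 + 27 * B ^ 2) * ((s + 27) * (s + 3) ^ 3) := by
  have hc0 : X ^ 3 + A * X + B ≠ 0 := by
    intro h0
    have hm2 : (3 * X ^ 2 + A) ^ 2 = 0 := by
      linear_combination (12 * X) * h0 - hψ
    have hm0 : 3 * X ^ 2 + A = 0 := by
      exact pow_eq_zero_iff (two_ne_zero) |>.mp hm2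
    apply hd
    linear_combination (6 * A * X ^ 2 - 9 * B * X + 4 * A ^ 2) * hm0 - (18 * A * X - 27 * B) * h0
  have hsd : 2 * (X ^ 3 + A * X + B) ^ 2 ≠ 0 := mul_ne_zero two_ne_zero (pow_ne_zero 2 hc0)
  have key : 6912 * A ^ 3 * ((3 * X ^ 2 + A) ^ 3 - 54 * (X ^ 3 + A * X + B) ^ 2)
        * (2 * (X ^ 3 + A * X + B) ^ 2) ^ 3
      = (4 * A ^ 3 + 27 * B ^ 2)
        * (((3 * X ^ 2 + A) ^ 3 - 54 * (X ^ 3 + A * X + B) ^ 2)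
            + 27 * (2 * (X ^ 3 + A * X + B) ^ 2))
        * (((3 * X ^ 2 + A) ^ 3 - 54 * (X ^ 3 + A * X + B) ^ 2)
            + 3 * (2 * (X ^ 3 + A * X + B) ^ 2)) ^ 3 := by
    linear_combination
      (4*A^13 - 408*A^12*X^2 - 1104*A^11*B*X + 10884*A^11*X^4 - 549*A^10*B^2
       + 66816*A^10*B*X^3 - 19872*A^10*X^6 + 130878*A^9*B^2*X^2 - 539712*A^9*B*X^5 - 211320*A^9*X^8
       + 96228*A^8*B^3*X - 2658501*A^8*B^2*X^4 - 2944512*A^8*B*X^7 - 167184*A^8*X^10 + 23760*A^7*B^4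
       - 5175360*A^7*B^3*X^3 - 8438904*A^7*B^2*X^6 - 3235680*A^7*B*X^9 + 493992*A^7*X^12 - 4655232*A^6*B^4*X^2
       - 2938032*A^6*B^3*X^5 + 8697942*A^6*B^2*X^8 + 2343168*A^6*B*X^11 + 650592*A^6*X^14 - 1954368*A^5*B^5*X
       + 17017776*A^5*B^4*X^4 + 81316224*A^5*B^3*X^7 + 69311700*A^5*B^2*X^10 + 5987520*A^5*B*X^13 - 192780*A^5*X^16
       - 311040*A^4*B^6 + 24230016*A^4*B^5*X^3 + 162012960*A^4*B^4*X^6 + 276446520*A^4*B^3*X^9 + 128201454*A^4*B^2*X^12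
       + 2985984*A^4*B*X^15 - 530712*A^4*X^18 + 12379392*A^3*B^6*X^2 + 135457920*A^3*B^5*X^5 + 411758640*A^3*B^4*X^8
       + 420790464*A^3*B^3*X^11 + 124732872*A^3*B^2*X^14 + 252720*A^3*B*X^17 - 164268*A^3*X^20 + 2239488*A^2*B^7*X
       + 50388480*A^2*B^6*X^4 + 269858304*A^2*B^5*X^7 + 503184960*A^2*B^4*X^10 + 342746640*A^2*B^3*X^13 + 69242607*A^2*B^2*X^16
       + 6718464*A*B^7*X^3 + 75582720*A*B^6*X^6 + 241444800*A*B^5*X^9 + 301176144*A*B^4*X^12 + 141087744*A*B^3*X^15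
       + 19932318*A*B^2*X^18 + 6718464*B^7*X^5 + 38631168*B^6*X^8 + 79781760*B^5*X^11 + 69074208*B^4*X^14
       + 21861252*B^3*X^17 + 2250423*B^2*X^20) * hψ
  refine ⟨((3 * X ^ 2 + A) ^ 3 - 54 * (X ^ 3 + A * X + B) ^ 2) / (2 * (X ^ 3 + A * X + B) ^ 2), ?_⟩
  have e1 : ∀ (n d k : ℚ), d ≠ 0 → n / d + k = (n + k * d) / d := by
    intro n d k hd'; field_simp
  rw [e1 _ _ 27 hsd, e1 _ _ 3 hsd, div_pow, div_mul_div_comm, mul_div_assoc', mul_div_assoc',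
    div_eq_div_iff hsd (mul_ne_zero hsd (pow_ne_zero 3 hsd))]
  linear_combination (2 * (X ^ 3 + A * X + B) ^ 2) * key

/-- K-level: the two duplication relations (at `P` and at `2P`) give two relations that are
symmetric in `X1 = x(P)`, `X2 = x(2P)`. -/
theorem short_five_K {K : Type*} [Field K] [CharZero K] (a b X1 X2 : K) (hne : X1 ≠ X2)
    (hC1 : 4 * (X1 ^ 3 + a * X1 + b) * (X2 - X1)
      + (3 * X1 ^ 4 + 6 * a * X1 ^ 2 + 12 * b * X1 - a ^ 2) = 0)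
    (hC1p : 4 * (X2 ^ 3 + a * X2 + b) * (X1 - X2)
      + (3 * X2 ^ 4 + 6 * a * X2 ^ 2 + 12 * b * X2 - a ^ 2) = 0) :
    (X1 + X2) ^ 3 - 6 * (X1 * X2) * (X1 + X2) - 2 * a * (X1 + X2) - 4 * b = 0 ∧
    a ^ 2 + 2 * a * ((X1 + X2) ^ 2 - X1 * X2) - (X1 + X2) ^ 4
      + 5 * (X1 + X2) ^ 2 * (X1 * X2) + 5 * (X1 * X2) ^ 2 = 0 := by
  have hD : X2 - X1 ≠ 0 := sub_ne_zero.mpr (Ne.symm hne)
  constructor
  · apply mul_left_cancel₀ hD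
    linear_combination hC1 - hC1p
  · apply mul_left_cancel₀ hD
    linear_combination (-1 / 4 : K) * ((8 * X2 + 4 * X1) * hC1 - (8 * X1 + 4 * X2) * hC1p)

/-- ℚ-level: the two symmetric relations give a rational point on `X₀(5)`. -/
theorem short_five_Q (A B σ π : ℚ) (hD2 : σ ^ 2 - 4 * π ≠ 0)
    (hS1 : σ ^ 3 - 6 * π * σ - 2 * A * σ - 4 * B = 0)
    (hF : A ^ 2 + 2 * A * (σ ^ 2 - π) - σ ^ 4 + 5 * σ ^ 2 * π + 5 * π ^ 2 = 0) :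
    ∃ t : ℚ, 6912 * A ^ 3 * t = (4 * A ^ 3 + 27 * B ^ 2) * (t ^ 2 + 10 * t + 5) ^ 3 := by
  have hB : B = (σ ^ 3 - 6 * π * σ - 2 * A * σ) / 4 := by linarith
  have key : 6912 * A ^ 3 * (4 * (σ ^ 2 - π + A) - 11 * (σ ^ 2 - 4 * π)) * (σ ^ 2 - 4 * π) ^ 5
      = (4 * A ^ 3 + 27 * B ^ 2)
        * ((4 * (σ ^ 2 - π + A) - 11 * (σ ^ 2 - 4 * π)) ^ 2
          + 10 * (4 * (σ ^ 2 - π + A) - 11 * (σ ^ 2 - 4 * π)) * (σ ^ 2 - 4 * π)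
          + 5 * (σ ^ 2 - 4 * π) ^ 2) ^ 3 := by
    rw [hB]
    linear_combination
      (-16384*A^7 + 54272*A^6*σ^2 - 524288*A^6*π - 14336*A^5*σ^4 + 980992*A^5*σ^2*π
       - 6127616*A^5*π^2 - 88832*A^4*σ^6 + 850944*A^4*σ^4*π + 3124224*A^4*σ^2*π^2 - 30932992*A^4*π^3
       + 45824*A^3*σ^8 - 1605632*A^3*σ^6*π + 13578240*A^3*σ^4*π^2 - 23932928*A^3*σ^2*π^3 - 57032704*A^3*π^4
       + 34560*A^2*σ^10 - 359424*A^2*σ^8*π - 2833920*A^2*σ^6*π^2 + 42522624*A^2*σ^4*π^3 - 120296448*A^2*σ^2*π^4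
       - 6912*A*σ^12 + 366336*A*σ^10*π - 4831488*A*σ^8*π^2 + 23169024*A*σ^6*π^3 - 27924480*A*σ^4*π^4
       - 43960320*A*σ^2*π^5 - 6912*σ^14 + 152064*σ^12*π - 1181952*σ^10*π^2 + 3386880*σ^8*π^3
       + 241920*σ^6*π^4 - 10368000*σ^4*π^5 - 6220800*σ^2*π^6) * hF
  refine ⟨(4 * (σ ^ 2 - π + A) - 11 * (σ ^ 2 - 4 * π)) / (σ ^ 2 - 4 * π), ?_⟩
  have e2 : ∀ (n d : ℚ), d ≠ 0 →
      (n / d) ^ 2 + 10 * (n / d) + 5 = (n ^ 2 + 10 * n * d + 5 * d ^ 2) / d ^ 2 := by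
    intro n d hd'; field_simp
  rw [e2 _ _ hD2, div_pow, mul_div_assoc', mul_div_assoc',
    div_eq_div_iff hD2 (pow_ne_zero 3 (pow_ne_zero 2 hD2))]
  linear_combination (σ ^ 2 - 4 * π) * key

/-- **T3, 3-part.** A rational root of `Ψ₃` gives a rational point on `X₀(3)`. -/
theorem moduli_three (E : WeierstrassCurve ℚ) (hΔ : E.Δ ≠ 0) (r : ℚ)
    (hr : 3 * r ^ 4 + E.b₂ * r ^ 3 + 3 * E.b₄ * r ^ 2 + 3 * E.b₆ * r + E.b₈ = 0) :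
    ∃ s : ℚ, E.c₄ ^ 3 * s = E.Δ * ((s + 27) * (s + 3) ^ 3) := by
  have hrel := E.b_relation
  have hcrel := E.c_relation
  have hc4 : E.c₄ = E.b₂ ^ 2 - 24 * E.b₄ := rfl
  have hc6 : E.c₆ = -E.b₂ ^ 3 + 36 * E.b₂ * E.b₄ - 216 * E.b₆ := rfl
  have hd : 4 * (-E.c₄ / 48) ^ 3 + 27 * (-E.c₆ / 864) ^ 2 = -E.Δ / 16 := by
    linear_combination (1 / 27648 : ℚ) * hcrel
  have hd0 : 4 * (-E.c₄ / 48) ^ 3 + 27 * (-E.c₆ / 864) ^ 2 ≠ 0 := by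
    rw [hd]
    exact div_ne_zero (neg_ne_zero.mpr hΔ) (by norm_num)
  obtain ⟨s, hs⟩ := short_three (-E.c₄ / 48) (-E.c₆ / 864) (r + E.b₂ / 12) hd0 (by
    rw [hc4, hc6]
    linear_combination hr - (1 / 4 : ℚ) * hrel)
  refine ⟨s, ?_⟩
  rw [hd] at hs
  linear_combination (-16 : ℚ) * hs

/-- **T3, 5-part.** A Galois-stable pair `{x(P), x(2P)}` (`P` of order 5) gives a rational point
on `X₀(5)`. -/
theorem moduli_five {K : Type*} [Field K] [Algebra ℚ K] (E : WeierstrassCurve ℚ) (_hΔ : E.Δ ≠ 0)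
    (sig pi : ℚ) (x1 x2 : K) (hne : x1 ≠ x2)
    (hsig : x1 + x2 = algebraMap ℚ K sig) (hpi : x1 * x2 = algebraMap ℚ K pi)
    (hC1 : (4 * x1 ^ 3 + algebraMap ℚ K E.b₂ * x1 ^ 2 + 2 * algebraMap ℚ K E.b₄ * x1
          + algebraMap ℚ K E.b₆) * (x2 - x1)
        + (3 * x1 ^ 4 + algebraMap ℚ K E.b₂ * x1 ^ 3 + 3 * algebraMap ℚ K E.b₄ * x1 ^ 2
          + 3 * algebraMap ℚ K E.b₆ * x1 + algebraMap ℚ K E.b₈) = 0)
    (hC1p : (4 * x2 ^ 3 + algebraMap ℚ K E.b₂ * x2 ^ 2 + 2 * algebraMap ℚ K E.b₄ * x2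
          + algebraMap ℚ K E.b₆) * (x1 - x2)
        + (3 * x2 ^ 4 + algebraMap ℚ K E.b₂ * x2 ^ 3 + 3 * algebraMap ℚ K E.b₄ * x2 ^ 2
          + 3 * algebraMap ℚ K E.b₆ * x2 + algebraMap ℚ K E.b₈) = 0) :
    ∃ t : ℚ, E.c₄ ^ 3 * t = E.Δ * (t ^ 2 + 10 * t + 5) ^ 3 := by
  have : CharZero K := algebraRat.charZero K
  have hrel := E.b_relation
  have hcrel := E.c_relation
  have hc4 : E.c₄ = E.b₂ ^ 2 - 24 * E.b₄ := rfl
  have hc6 : E.c₆ = -E.b₂ ^ 3 + 36 * E.b₂ * E.b₄ - 216 * E.b₆ := rfl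
  have hd : 4 * (-E.c₄ / 48) ^ 3 + 27 * (-E.c₆ / 864) ^ 2 = -E.Δ / 16 := by
    linear_combination (1 / 27648 : ℚ) * hcrel
  -- notation
  set ι := algebraMap ℚ K with hι
  have hinj : Function.Injective ι := ι.injective
  -- images of the coefficients
  have hrelK : 4 * ι E.b₈ = ι E.b₂ * ι E.b₆ - ι E.b₄ ^ 2 := by
    have := congrArg ι hrel
    simpa only [map_mul, map_sub, map_pow, map_ofNat] using this
  have hA : ι (-E.c₄ / 48) = -(ι E.b₂ ^ 2 - 24 * ι E.b₄) / 48 := by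
    rw [hc4]; simp only [map_div₀, map_neg, map_sub, map_mul, map_pow, map_ofNat]
  have hB : ι (-E.c₆ / 864) = -(-ι E.b₂ ^ 3 + 36 * ι E.b₂ * ι E.b₄ - 216 * ι E.b₆) / 864 := by
    rw [hc6]; simp only [map_div₀, map_neg, map_sub, map_add, map_mul, map_pow, map_ofNat]
  have h12 : ι (E.b₂ / 12) = ι E.b₂ / 12 := by
    simp only [map_div₀, map_ofNat]
  -- short-form relations in K
  obtain ⟨hS1K, hFK⟩ := short_five_K (ι (-E.c₄ / 48)) (ι (-E.c₆ / 864))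
    (x1 + ι (E.b₂ / 12)) (x2 + ι (E.b₂ / 12)) (by simpa using hne)
    (by rw [hA, hB, h12]; linear_combination hC1 - (1 / 4 : K) * hrelK)
    (by rw [hA, hB, h12]; linear_combination hC1p - (1 / 4 : K) * hrelK)
  -- the symmetric functions are rational
  have hsum : (x1 + ι (E.b₂ / 12)) + (x2 + ι (E.b₂ / 12)) = ι (sig + E.b₂ / 6) := by
    rw [map_add, ← hsig, h12]
    have : ι (E.b₂ / 6) = ι E.b₂ / 6 := by simp only [map_div₀, map_ofNat]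
    rw [this]; ring
  have hprod : (x1 + ι (E.b₂ / 12)) * (x2 + ι (E.b₂ / 12))
      = ι (pi + E.b₂ / 12 * sig + (E.b₂ / 12) ^ 2) := by
    rw [map_add, map_add, map_mul, map_pow, ← hsig, ← hpi]; ring
  rw [hsum, hprod] at hS1K hFK
  have hS1 : (sig + E.b₂ / 6) ^ 3 - 6 * (pi + E.b₂ / 12 * sig + (E.b₂ / 12) ^ 2) * (sig + E.b₂ / 6)
      - 2 * (-E.c₄ / 48) * (sig + E.b₂ / 6) - 4 * (-E.c₆ / 864) = 0 := by
    apply hinj
    rw [map_zero, ← hS1K]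
    simp only [map_sub, map_mul, map_pow, map_ofNat]
  have hF : (-E.c₄ / 48) ^ 2 + 2 * (-E.c₄ / 48) * ((sig + E.b₂ / 6) ^ 2
        - (pi + E.b₂ / 12 * sig + (E.b₂ / 12) ^ 2)) - (sig + E.b₂ / 6) ^ 4
      + 5 * (sig + E.b₂ / 6) ^ 2 * (pi + E.b₂ / 12 * sig + (E.b₂ / 12) ^ 2)
      + 5 * (pi + E.b₂ / 12 * sig + (E.b₂ / 12) ^ 2) ^ 2 = 0 := by
    apply hinj
    rw [map_zero, ← hFK]
    simp only [map_sub, map_add, map_mul, map_pow, map_ofNat]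
  have hD2 : (sig + E.b₂ / 6) ^ 2 - 4 * (pi + E.b₂ / 12 * sig + (E.b₂ / 12) ^ 2) ≠ 0 := by
    intro h0
    have h1 := congrArg ι h0
    rw [map_sub, map_mul, map_pow, ← hsum, ← hprod, map_zero, map_ofNat] at h1
    have h2 : (x1 - x2) ^ 2 = 0 := by linear_combination h1
    exact hne (sub_eq_zero.mp (pow_eq_zero_iff two_ne_zero |>.mp h2))
  obtain ⟨t, ht⟩ := short_five_Q (-E.c₄ / 48) (-E.c₆ / 864) _ _ hD2 hS1 hF
  refine ⟨t, ?_⟩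
  rw [hd] at ht
  linear_combination (-16 : ℚ) * ht

end Fermat.Agent.S51.Moduli
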